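import Mathlib
import Fermat.Agent.JPC.Base

/-!
# `k`-points of the curve (S25, block I)
-/

set_option autoImplicit false

universe u

open TensorProduct Polynomial

namespace Fermat.Agent.JF

open Fermat.Agent.JPC

variable {k : Type u} [Field k]

theorem isDomain_A (X : TwoChart k) : IsDomain X.A :=
  have := X.dom k
  (TensorProduct.lid k X.A).symm.injective.isDomain
    ((Algebra.TensorProduct.lid k X.A).symm : X.A →+* k ⊗[k] X.A)

theorem fg_A (X : TwoChart k) : Algebra.FiniteType k X.A := by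
  classical
  let s : Finset X.A := insert (X.t : X.A) (insert ((X.t⁻¹ : X.Aˣ) : X.A)
    (Finset.univ.image X.b0))
  refine ⟨⟨s, ?_⟩⟩
  rw [eq_top_iff]
  rintro a -
  have ht : (X.t : X.A) ∈ Algebra.adjoin k (s : Set X.A) :=
    Algebra.subset_adjoin (by simp [s])
  have ht' : ((X.t⁻¹ : X.Aˣ) : X.A) ∈ Algebra.adjoin k (s : Set X.A) :=
    Algebra.subset_adjoin (by simp [s])
  have hb : ∀ i, X.b0 i ∈ Algebra.adjoin k (s : Set X.A) := fun i =>
    Algebra.subset_adjoin (by simp [s])
  obtain ⟨n, hn⟩ := X.ex0 a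
  obtain ⟨f, hf, -⟩ := X.b0_basis _ hn
  have h1 : (X.t : X.A) ^ n * a ∈ Algebra.adjoin k (s : Set X.A) := by
    rw [hf]
    refine Subalgebra.sum_mem _ fun i _ => Subalgebra.mul_mem _ ?_ (hb i)
    have h2 : aeval (X.t : X.A) (f i) ∈ Algebra.adjoin k {(X.t : X.A)} :=
      Polynomial.aeval_mem_adjoin_singleton k _
    exact Algebra.adjoin_le (Set.singleton_subset_iff.mpr ht) h2
  have h2 : a = ((X.t⁻¹ : X.Aˣ) : X.A) ^ n * ((X.t : X.A) ^ n * a) := by
    rw [← mul_assoc, ← mul_pow, Units.inv_mul, one_pow, one_mul]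
  rw [h2]
  exact Subalgebra.mul_mem _ (Subalgebra.pow_mem _ ht' n) h1

/-- Nullstellensatz: points where a given function does not vanish -/
theorem exists_pt [IsAlgClosed k] {A : Type*} [CommRing A] [IsDomain A] [Algebra k A]
    [Algebra.FiniteType k A] {a : A} (ha : a ≠ 0) : ∃ y : A →ₐ[k] k, y a ≠ 0 := by
  let S := Localization.Away a
  have hinj : Function.Injective (algebraMap A S) :=
    IsLocalization.injective S (powers_le_nonZeroDivisors_of_noZeroDivisors ha)
  have : Nontrivial S := hinj.nontrivial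
  have : Algebra.FiniteType A S := IsLocalization.finiteType_of_monoid_fg (Submonoid.powers a) S
  have : Algebra.FiniteType k S := Algebra.FiniteType.trans (S := A) inferInstance inferInstance
  obtain ⟨m, hm⟩ := Ideal.exists_maximal S
  let := Ideal.Quotient.field m
  have : Algebra.FiniteType k (S ⧸ m) := Algebra.FiniteType.trans (S := S) inferInstance
    inferInstance
  have hfin : Module.Finite k (S ⧸ m) := finite_of_finite_type_of_isJacobsonRing k (S ⧸ m)
  have hb : Function.Bijective (algebraMap k (S ⧸ m)) :=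
    IsAlgClosed.algebraMap_bijective_of_isIntegral
  let e : k ≃ₐ[k] S ⧸ m := AlgEquiv.ofBijective (Algebra.ofId k (S ⧸ m)) hb
  let y : A →ₐ[k] k := (e.symm : (S ⧸ m) →ₐ[k] k).comp
    ((Ideal.Quotient.mkₐ k m).comp (IsScalarTower.toAlgHom k A S))
  refine ⟨y, ?_⟩
  have h1 : IsUnit (algebraMap A S a) := IsLocalization.Away.algebraMap_isUnit a
  have h2 : IsUnit (y a) :=
    (h1.map (Ideal.Quotient.mkₐ k m)).map (e.symm : (S ⧸ m) →ₐ[k] k)
  exact h2.ne_zero

variable {K : Type u} [Field K] [Algebra k K]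

/-- evaluation at a `k`-point on `K ⊗ A` -/
noncomputable def evK {A : Type u} [CommRing A] [Algebra k A] (K : Type u) [CommRing K]
    [Algebra k K] (y : A →ₐ[k] k) : K ⊗[k] A →ₐ[K] K :=
  Algebra.TensorProduct.lift (AlgHom.id K K) ((Algebra.ofId k K).comp y) fun _ _ => .all _ _

@[simp] theorem evK_tmul {A : Type u} [CommRing A] [Algebra k A] {K : Type u} [CommRing K]
    [Algebra k K] (y : A →ₐ[k] k) (c : K) (a : A) :
    evK K y (c ⊗ₜ a) = c * algebraMap k K (y a) := rfl

theorem evK_surjective {A : Type u} [CommRing A] [Algebra k A] {K : Type u} [CommRing K]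
    [Algebra k K] (y : A →ₐ[k] k) : Function.Surjective (evK K y) := fun c =>
  ⟨c ⊗ₜ 1, by rw [evK_tmul, map_one, map_one, mul_one]⟩

/-- points where a given element of `K ⊗ A` does not vanish -/
theorem exists_pt_tensor [IsAlgClosed k] {A : Type u} [CommRing A] [IsDomain A] [Algebra k A]
    [Algebra.FiniteType k A] {f : K ⊗[k] A} (hf : f ≠ 0) :
    ∃ y : A →ₐ[k] k, evK K y f ≠ 0 := by
  classical
  let b := Module.Basis.ofVectorSpace k K
  have h1 : TensorProduct.equivFinsuppOfBasisLeft (N := A) b f ≠ 0 := by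
    intro h
    apply hf
    exact (LinearEquiv.map_eq_zero_iff _).mp h
  obtain ⟨i, hi⟩ := Finsupp.ne_iff.mp h1
  rw [Finsupp.zero_apply] at hi
  obtain ⟨y, hy⟩ := exists_pt (k := k) hi
  refine ⟨y, fun h => hy ?_⟩
  have key : ∀ g : K ⊗[k] A, y (TensorProduct.equivFinsuppOfBasisLeft (N := A) b g i) =
      b.coord i (evK K y g) := by
    intro g
    induction g using TensorProduct.induction_on with
    | zero => simp
    | tmul c a =>
      rw [TensorProduct.equivFinsuppOfBasisLeft_apply_tmul_apply, map_smul, evK_tmul,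
        mul_comm, ← Algebra.smul_def, map_smul, smul_eq_mul, smul_eq_mul, mul_comm]
      rfl
    | add x y hx hy => rw [map_add, Finsupp.add_apply, map_add, hx, hy, map_add, map_add]
  rw [key, h, map_zero]

end Fermat.Agent.JF
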