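import Mathlib
import Fermat.Agent.JF.Pts

/-!
# `K ⊗ A0` is finite over `K[X]`, and `dim (K ⊗ A0)/t = d` (S25, block I)
-/

set_option autoImplicit false

universe u

open TensorProduct Polynomial

namespace Fermat.Agent.JF

open Fermat.Agent.JPC

variable {k : Type u} [Field k] (X : TwoChart k)

/-- `t` as an element of `A0` -/
def tA0 : X.A0 := ⟨X.t, X.t_mem⟩

/-- coordinates with respect to `b0` -/
noncomputable def co0 (a : X.A0) : Fin X.d → k[X] := (X.b0_basis a a.2).choose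

theorem co0_spec (a : X.A0) : (a : X.A) = ∑ i, aeval (X.t : X.A) (co0 X a i) * X.b0 i :=
  (X.b0_basis a a.2).choose_spec.1

theorem co0_eq {a : X.A0} {f : Fin X.d → k[X]}
    (h : (a : X.A) = ∑ i, aeval (X.t : X.A) (f i) * X.b0 i) : co0 X a = f :=
  ((X.b0_basis a a.2).choose_spec.2 f h).symm

theorem co0_add (a b : X.A0) : co0 X (a + b) = co0 X a + co0 X b := by
  apply co0_eq
  rw [Subalgebra.coe_add, co0_spec X a, co0_spec X b, ← Finset.sum_add_distrib]
  refine Finset.sum_congr rfl fun i _ => ?_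
  rw [Pi.add_apply, map_add, add_mul]

theorem co0_smul (c : k) (a : X.A0) : co0 X (c • a) = c • co0 X a := by
  apply co0_eq
  rw [Subalgebra.coe_smul, co0_spec X a, Finset.smul_sum]
  refine Finset.sum_congr rfl fun i _ => ?_
  rw [Pi.smul_apply, map_smul, smul_mul_assoc]

theorem co0_t (a : X.A0) : co0 X (tA0 X * a) = fun i => Polynomial.X * co0 X a i := by
  apply co0_eq
  show (X.t : X.A) * a = _
  conv_lhs => rw [co0_spec X a]
  rw [Finset.mul_sum]
  refine Finset.sum_congr rfl fun i _ => ?_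
  rw [map_mul, aeval_X, mul_assoc]

theorem co0_b (j : Fin X.d) : co0 X ⟨X.b0 j, X.b0_mem j⟩ = fun i => if i = j then 1 else 0 := by
  apply co0_eq
  show X.b0 j = _
  rw [Finset.sum_eq_single j (fun i _ hi => by rw [if_neg hi, map_zero, zero_mul])
    (fun h => absurd (Finset.mem_univ j) h), if_pos rfl, map_one, one_mul]

/-- the constant coefficients of the coordinates -/
noncomputable def cc0 (i : Fin X.d) : X.A0 →ₗ[k] k where
  toFun a := (co0 X a i).coeff 0
  map_add' a b := by rw [co0_add, Pi.add_apply, coeff_add]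
  map_smul' c a := by rw [co0_smul, Pi.smul_apply, coeff_smul]; rfl

theorem cc0_t (i : Fin X.d) (a : X.A0) : cc0 X i (tA0 X * a) = 0 := by
  show (co0 X (tA0 X * a) i).coeff 0 = 0
  rw [co0_t]
  show (Polynomial.X * co0 X a i).coeff 0 = 0
  rw [mul_coeff_zero, coeff_X_zero, zero_mul]

theorem cc0_b (i j : Fin X.d) : cc0 X i ⟨X.b0 j, X.b0_mem j⟩ = if i = j then 1 else 0 := by
  show (co0 X ⟨X.b0 j, X.b0_mem j⟩ i).coeff 0 = _
  rw [co0_b]
  beta_reduce
  split_ifs <;> simp

/-- `a ≡ Σ c_i b0_i` modulo `t` -/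
theorem exists_cc0 (a : X.A0) : ∃ a' : X.A0,
    a = ∑ i, cc0 X i a • (⟨X.b0 i, X.b0_mem i⟩ : X.A0) + tA0 X * a' := by
  refine ⟨∑ i, aeval (tA0 X) (divX (co0 X a i)) * ⟨X.b0 i, X.b0_mem i⟩, ?_⟩
  have h1 : ∀ p : k[X], p = C (p.coeff 0) + Polynomial.X * divX p := fun p => by
    conv_lhs => rw [← divX_mul_X_add p]
    ring
  apply Subtype.ext
  rw [Subalgebra.coe_add, Subalgebra.coe_mul]
  push_cast
  rw [Finset.mul_sum, ← Finset.sum_add_distrib]
  conv_lhs => rw [co0_spec X a]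
  refine Finset.sum_congr rfl fun i _ => ?_
  conv_lhs => rw [h1 (co0 X a i)]
  rw [map_add, map_mul, aeval_X, aeval_C, add_mul, ← Algebra.smul_def]
  congr 1
  exact mul_assoc _ _ _

variable (K : Type u) [Field K] [Algebra k K]

/-- `1 ⊗ t` -/
noncomputable def tK : K ⊗[k] X.A0 := 1 ⊗ₜ tA0 X

/-- every element of `K ⊗ A0` is integral over `K[t]` -/
theorem integral_aeval (y : K ⊗[k] X.A0) :
    ((aeval (tK X K) : K[X] →ₐ[K] K ⊗[k] X.A0) : K[X] →+* K ⊗[k] X.A0).IsIntegralElem y := by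
  let φ : K[X] →+* K ⊗[k] X.A0 := (aeval (tK X K) : K[X] →ₐ[K] K ⊗[k] X.A0)
  let _ : Algebra K[X] (K ⊗[k] X.A0) := φ.toAlgebra
  have hsm : ∀ (p : K[X]) (y : K ⊗[k] X.A0), p • y = aeval (tK X K) p * y := fun _ _ => rfl
  have hfin : Module.Finite K[X] (K ⊗[k] X.A0) := by
    classical
    refine ⟨⟨Finset.univ.image fun i => (1 : K) ⊗ₜ[k] (⟨X.b0 i, X.b0_mem i⟩ : X.A0), ?_⟩⟩
    rw [eq_top_iff]
    rintro y -
    induction y using TensorProduct.induction_on with
    | zero => exact Submodule.zero_mem _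
    | add x y hx hy => exact Submodule.add_mem _ hx hy
    | tmul c a =>
      have h1 : a = ∑ i, aeval (tA0 X) (co0 X a i) * (⟨X.b0 i, X.b0_mem i⟩ : X.A0) := by
        apply Subtype.ext
        conv_lhs => rw [co0_spec X a]
        push_cast
        refine Finset.sum_congr rfl fun i _ => ?_
        congr 1
      have h2 : c ⊗ₜ[k] a = ∑ i, (C c * (co0 X a i).map (algebraMap k K)) •
          ((1 : K) ⊗ₜ[k] (⟨X.b0 i, X.b0_mem i⟩ : X.A0)) := by
        conv_lhs => rw [h1]
        rw [TensorProduct.tmul_sum]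
        refine Finset.sum_congr rfl fun i _ => ?_
        rw [hsm, map_mul, aeval_C, aeval_map_algebraMap]
        have h3 : aeval (tK X K) (co0 X a i) = 1 ⊗ₜ[k] aeval (tA0 X) (co0 X a i) := by
          have := Polynomial.aeval_algHom_apply
            (Algebra.TensorProduct.includeRight : X.A0 →ₐ[k] K ⊗[k] X.A0) (tA0 X) (co0 X a i)
          exact this
        rw [h3, Algebra.TensorProduct.algebraMap_apply, Algebra.algebraMap_self,
          RingHom.id_apply, Algebra.TensorProduct.tmul_mul_tmul, mul_one, one_mul,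
          Algebra.TensorProduct.tmul_mul_tmul, mul_one]
      rw [h2]
      exact Submodule.sum_mem _ fun i _ => Submodule.smul_mem _ _
        (Submodule.subset_span (by simp))
  exact (Algebra.IsIntegral.of_finite K[X] (K ⊗[k] X.A0)).isIntegral y

/-- a non-zero element of `K ⊗ A0` divides a non-zero polynomial in `t` -/
theorem exists_poly_mul {y : K ⊗[k] X.A0} (hy : y ≠ 0) :
    ∃ q : K[X], q ≠ 0 ∧ ∃ g : K ⊗[k] X.A0, g * y = aeval (tK X K) q := by
  have := (X.ded0 K).1
  let φ : K[X] →+* K ⊗[k] X.A0 := (aeval (tK X K) : K[X] →ₐ[K] K ⊗[k] X.A0)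
  let _ : Algebra K[X] (K ⊗[k] X.A0) := φ.toAlgebra
  have h1 := Ideal.comap_ne_bot_of_integral_mem (R := K[X]) (I := Ideal.span {y}) hy
    (Ideal.mem_span_singleton_self y) (integral_aeval X K y)
  obtain ⟨q, hq, hq0⟩ := Submodule.exists_mem_ne_zero_of_ne_bot h1
  obtain ⟨g, hg⟩ := Ideal.mem_span_singleton'.mp (Ideal.mem_comap.mp hq)
  exact ⟨q, hq0, g, hg⟩

end Fermat.Agent.JF
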