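import Mathlib

/-!
# Invertible modules: elementary lemmas (S25, blocks F2, I)
-/

set_option autoImplicit false

open TensorProduct

namespace Fermat.Agent.JF

variable {R : Type*} [CommRing R] {N : Type*} [AddCommGroup N] [Module R N]
  [Module.Invertible R N]

/-- two "fibre functionals" on an invertible module are proportional -/
theorem inv_mul_comm {B : Type*} [CommRing B] (y : R →+* B) (f g : N →+ B)
    (hf : ∀ r m, f (r • m) = y r * f m) (hg : ∀ r m, g (r • m) = y r * g m) (m m' : N) :
    f m * g m' = f m' * g m := by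
  let _ : Module R B := Module.compHom B y
  have hsm : ∀ (r : R) (b : B), r • b = y r * b := fun _ _ => rfl
  have : SMulCommClass R B B := ⟨fun r b c => by
    rw [hsm, hsm, smul_eq_mul, smul_eq_mul]
    ring⟩
  let F : N →ₗ[R] B := { toFun := f, map_add' := f.map_add, map_smul' := hf }
  let G : N →ₗ[R] B := { toFun := g, map_add' := g.map_add, map_smul' := hg }
  let μ : N →ₗ[R] N →ₗ[R] B := LinearMap.mk₂ R (fun a b => F a * G b)
    (fun a b c => by rw [map_add, add_mul])
    (fun r a b => by rw [map_smul, hsm, hsm, mul_assoc])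
    (fun a b c => by rw [map_add, mul_add])
    (fun r a b => by rw [map_smul, hsm, hsm]; ring)
  have h := congrArg (TensorProduct.lift μ) (Module.Invertible.tmul_comm (R := R) (m₁ := m)
    (m₂ := m'))
  rw [TensorProduct.lift.tmul, TensorProduct.lift.tmul] at h
  exact h

/-- `φ w • m = φ m • w` for a functional on an invertible module -/
theorem inv_smul_comm (φ : N →ₗ[R] R) (m w : N) : φ w • m = φ m • w := by
  let μ : N →ₗ[R] N →ₗ[R] N := LinearMap.mk₂ R (fun a b => φ a • b)
    (fun a b c => by rw [map_add, add_smul])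
    (fun r a b => by rw [map_smul, smul_eq_mul, mul_smul])
    (fun a b c => smul_add _ _ _)
    (fun r a b => smul_comm _ _ _)
  have h := congrArg (TensorProduct.lift μ) (Module.Invertible.tmul_comm (R := R) (m₁ := w)
    (m₂ := m))
  rw [TensorProduct.lift.tmul, TensorProduct.lift.tmul] at h
  exact h

variable (R N) in
/-- `1 = Σ φ_i (m_i)` -/
theorem inv_exists_dual : ∃ S : Finset ((N →ₗ[R] R) × N), ∑ i ∈ S, i.1 i.2 = 1 := by
  obtain ⟨S, hS⟩ := ((Module.Invertible.linearEquiv R N).symm 1).exists_finset
  refine ⟨S, ?_⟩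
  have h := congrArg (Module.Invertible.linearEquiv R N) hS
  rw [LinearEquiv.apply_symm_apply, map_sum] at h
  exact h.symm

/-- the functionals separate points -/
theorem inv_exists_ne {w : N} (hw : w ≠ 0) : ∃ φ : N →ₗ[R] R, φ w ≠ 0 := by
  by_contra hne
  push Not at hne
  apply hw
  obtain ⟨S, hS⟩ := inv_exists_dual R N
  rw [← one_smul R w, ← hS, Finset.sum_smul]
  refine Finset.sum_eq_zero fun i _ => ?_
  rw [inv_smul_comm, hne, zero_smul]

/-- a functional which does not vanish at a given point -/
theorem inv_exists_at {K : Type*} [Field K] (y : R →+* K) :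
    ∃ (φ : N →ₗ[R] R) (m : N), y (φ m) ≠ 0 := by
  by_contra hne
  push Not at hne
  obtain ⟨S, hS⟩ := inv_exists_dual R N
  have h := congrArg y hS
  rw [map_sum, map_one, Finset.sum_eq_zero fun i _ => hne i.1 i.2] at h
  exact zero_ne_one h

/-- the fibre functional at a point: `f : N → K` additive, `f (r m) = y(r) f(m)`, surjective,
with kernel `(ker y) N` -/
theorem inv_exists_fibre {K : Type*} [Field K] (y : R →+* K) (hy : Function.Surjective y) :
    ∃ f : N →+ K, (∀ r m, f (r • m) = y r * f m) ∧ Function.Surjective f ∧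
      ∀ m, f m = 0 ↔ m ∈ (RingHom.ker y) • (⊤ : Submodule R N) := by
  obtain ⟨φ, m₀, h₀⟩ := inv_exists_at (N := N) y
  refine ⟨y.toAddMonoidHom.comp φ.toAddMonoidHom, fun r m => ?_, fun c => ?_, fun m => ⟨fun hm =>
    ?_, fun hm => ?_⟩⟩
  · show y (φ (r • m)) = y r * y (φ m)
    rw [map_smul, smul_eq_mul, map_mul]
  · obtain ⟨r, hr⟩ := hy (c / y (φ m₀))
    refine ⟨r • m₀, ?_⟩
    show y (φ (r • m₀)) = c
    rw [map_smul, smul_eq_mul, map_mul, hr, div_mul_cancel₀ _ h₀]
  · have hm' : φ m ∈ RingHom.ker y := hm
    obtain ⟨r, hr⟩ := hy (y (φ m₀))⁻¹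
    have h1 : 1 - r * φ m₀ ∈ RingHom.ker y := by
      rw [RingHom.mem_ker, map_sub, map_one, map_mul, hr, inv_mul_cancel₀ h₀, sub_self]
    have h2 : m = r • (φ m • m₀) + (1 - r * φ m₀) • m := by
      rw [← inv_smul_comm φ m m₀, sub_smul, one_smul, mul_smul]
      abel
    rw [h2]
    exact Submodule.add_mem _ (Submodule.smul_mem _ _
      (Submodule.smul_mem_smul hm' Submodule.mem_top))
      (Submodule.smul_mem_smul h1 Submodule.mem_top)
  · show y (φ m) = 0
    induction hm using Submodule.smul_induction_on' with
    | smul r hr n _ =>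
      rw [map_smul, smul_eq_mul, map_mul, (RingHom.mem_ker).mp hr, zero_mul]
    | add a _ b _ ha hb => rw [map_add, map_add, ha, hb, add_zero]

/-- `I N` is invertible if `I` is -/
theorem inv_smul_top {I : Ideal R} [Module.Invertible R I] :
    Module.Invertible R (I • (⊤ : Submodule R N) : Submodule R N) := by
  let f : I ⊗[R] N →ₗ[R] N := (TensorProduct.lid R N).toLinearMap ∘ₗ I.subtype.rTensor N
  have hf : Function.Injective f := (TensorProduct.lid R N).injective.comp
    (Module.Flat.rTensor_preserves_injective_linearMap _ I.subtype_injective)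
  have hr : LinearMap.range f = I • (⊤ : Submodule R N) := by
    apply le_antisymm
    · rintro _ ⟨x, rfl⟩
      induction x using TensorProduct.induction_on with
      | zero => rw [map_zero]; exact Submodule.zero_mem _
      | tmul a n => exact Submodule.smul_mem_smul a.2 Submodule.mem_top
      | add x y hx hy => rw [map_add]; exact Submodule.add_mem _ hx hy
    · rw [Submodule.smul_le]
      rintro r hr n -
      exact ⟨⟨r, hr⟩ ⊗ₜ n, rfl⟩
  exact Module.Invertible.congr ((LinearEquiv.ofInjective f hf).trans (LinearEquiv.ofEq _ _ hr))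

omit [Module.Invertible R N] [AddCommGroup N] [Module R N] in
/-- non-zero ideals of Dedekind domains are invertible -/
theorem inv_ideal [IsDomain R] [IsDedekindRing R] {I : Ideal R} (hI : I ≠ ⊥) :
    Module.Invertible R I := by
  have : IsDedekindDomain R := {}
  let K := FractionRing R
  let J : FractionalIdeal (nonZeroDivisors R) K := I
  have hJ : J ≠ 0 := by
    rw [Ne, FractionalIdeal.coeIdeal_eq_zero]
    exact hI
  have hu : IsUnit (J : Submodule R K) := by
    have h1 : (J : Submodule R K) * ((J⁻¹ : FractionalIdeal (nonZeroDivisors R) K) :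
        Submodule R K) = 1 := by
      rw [← FractionalIdeal.coe_mul, mul_inv_cancel₀ hJ, FractionalIdeal.coe_one]
    exact IsUnit.of_mul_eq_one _ h1
  have : Module.Invertible R (hu.unit : Submodule R K) := inferInstance
  have e : I ≃ₗ[R] (hu.unit : Submodule R K) := by
    have h2 : (hu.unit : Submodule R K) = Submodule.map (Algebra.linearMap R K) I := rfl
    rw [h2]
    exact Submodule.equivMapOfInjective _ (IsFractionRing.injective R K) I
  exact Module.Invertible.congr e.symm

end Fermat.Agent.JF
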