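import Mathlib

/-!
# Acyclic lattices (S25, kb 73, block F2)

`τ` is an automorphism of the `B`-module `M`, `P` and `Q` are submodules with `τ P ⊆ P`,
`τ⁻¹ Q ⊆ Q`.  If `M = P ⊕ Q` then `M = ⊕ τ^n W`, `P = ⊕_{n ≥ 0} τ^n W`, `Q = ⊕_{n < 0} τ^n W`
with `W = P ∩ τ Q`.
-/

set_option autoImplicit false

namespace Fermat.Agent.JF

variable {B M : Type*} [CommRing B] [AddCommGroup M] [Module B M]

/-- lattices for the two points `0` and `∞` of the projective line -/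
structure Lat (τ : M ≃ₗ[B] M) (P Q : Submodule B M) : Prop where
  memP : ∀ p ∈ P, τ p ∈ P
  memQ : ∀ q ∈ Q, τ.symm q ∈ Q
  exP : ∀ m, ∃ n : ℕ, (τ ^ n) m ∈ P
  exQ : ∀ m, ∃ n : ℕ, (τ⁻¹ ^ n) m ∈ Q

/-- the fibre at `0` -/
def WW (τ : M ≃ₗ[B] M) (P Q : Submodule B M) : Submodule B M := P ⊓ Q.map (τ : M →ₗ[B] M)

variable {τ : M ≃ₗ[B] M} {P Q : Submodule B M}

theorem inv_eq_symm : τ⁻¹ = τ.symm := rfl

theorem mem_WW {m : M} : m ∈ WW τ P Q ↔ m ∈ P ∧ τ.symm m ∈ Q := by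
  rw [WW, Submodule.mem_inf, Submodule.mem_map]
  refine and_congr_right fun _ => ⟨?_, fun h => ⟨_, h, τ.apply_symm_apply m⟩⟩
  rintro ⟨q, hq, rfl⟩
  show τ.symm (τ q) ∈ Q
  rwa [τ.symm_apply_apply]

namespace Lat

variable (h : Lat τ P Q)

include h

theorem pow_memP {p : M} (hp : p ∈ P) (n : ℕ) : (τ ^ n) p ∈ P := by
  induction n with
  | zero => simpa using hp
  | succ n ih =>
    rw [pow_succ']
    exact h.memP _ ih

theorem pow_memQ {q : M} (hq : q ∈ Q) (n : ℕ) : (τ⁻¹ ^ n) q ∈ Q := by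
  induction n with
  | zero => simpa using hq
  | succ n ih =>
    rw [pow_succ']
    exact h.memQ _ ih

theorem zpow_memP {p : M} (hp : p ∈ P) {n : ℤ} (hn : 0 ≤ n) : (τ ^ n) p ∈ P := by
  obtain ⟨n, rfl⟩ := Int.eq_ofNat_of_zero_le hn
  rw [zpow_natCast]
  exact h.pow_memP hp n

theorem zpow_memQ {q : M} (hq : q ∈ Q) {n : ℤ} (hn : n ≤ 0) : (τ ^ n) q ∈ Q := by
  obtain ⟨m, hm⟩ := Int.eq_ofNat_of_zero_le (neg_nonneg.mpr hn)
  have : τ ^ n = τ⁻¹ ^ m := by
    rw [inv_pow, ← zpow_natCast, ← zpow_neg, ← hm, neg_neg]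
  rw [this]
  exact h.pow_memQ hq m

theorem zpow_WW_memP {w : M} (hw : w ∈ WW τ P Q) {n : ℤ} (hn : 0 ≤ n) : (τ ^ n) w ∈ P :=
  h.zpow_memP (mem_WW.mp hw).1 hn

theorem zpow_WW_memQ {w : M} (hw : w ∈ WW τ P Q) {n : ℤ} (hn : n < 0) : (τ ^ n) w ∈ Q := by
  have h1 : (τ ^ n) w = (τ ^ (n + 1)) (τ.symm w) := by
    rw [zpow_add_one]
    show (τ ^ n) w = (τ ^ n) (τ (τ.symm w))
    rw [τ.apply_symm_apply]
  rw [h1]
  exact h.zpow_memQ (mem_WW.mp hw).2 (by omega)

omit h in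
/-- `P = W ⊕ τ P` -/
theorem exists_decP (h : Lat τ P Q) (hc : IsCompl P Q) {p : M} (hp : p ∈ P) :
    ∃ w ∈ WW τ P Q, ∃ p' ∈ P, p = w + τ p' := by
  obtain ⟨a, ha, b, hb, hab⟩ := Submodule.mem_sup.mp
    (show τ.symm p ∈ P ⊔ Q by rw [hc.sup_eq_top]; trivial)
  refine ⟨τ b, mem_WW.mpr ⟨?_, by rwa [τ.symm_apply_apply]⟩, a, ha, ?_⟩
  · have : τ b = p - τ a := by
      rw [eq_sub_iff_add_eq, add_comm, ← map_add, hab, τ.apply_symm_apply]
    rw [this]
    exact P.sub_mem hp (h.memP a ha)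
  · rw [add_comm, ← map_add, hab, τ.apply_symm_apply]

/-- `τ Q = W ⊕ Q` -/
theorem exists_decQ (hc : IsCompl P Q) {q : M} (hq : q ∈ Q) :
    ∃ w ∈ WW τ P Q, ∃ q' ∈ Q, q = τ.symm w + τ.symm q' := by
  obtain ⟨a, ha, b, hb, hab⟩ := Submodule.mem_sup.mp
    (show τ q ∈ P ⊔ Q by rw [hc.sup_eq_top]; trivial)
  refine ⟨a, mem_WW.mpr ⟨ha, ?_⟩, b, hb, ?_⟩
  · have : τ.symm a = q - τ.symm b := by
      rw [eq_sub_iff_add_eq, ← map_add, hab, τ.symm_apply_apply]
    rw [this]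
    exact Q.sub_mem hq (h.memQ b hb)
  · rw [← map_add, hab, τ.symm_apply_apply]

omit h in
/-- `W ∩ τ P = 0` -/
theorem eq_zero_of_WW (hc : IsCompl P Q) {p : M} (hp : p ∈ P) (hw : τ p ∈ WW τ P Q) :
    p = 0 := by
  have h1 := (mem_WW.mp hw).2
  rw [τ.symm_apply_apply] at h1
  have : p ∈ P ⊓ Q := ⟨hp, h1⟩
  rwa [hc.inf_eq_bot, Submodule.mem_bot] at this

end Lat

/-- the map `⊕ τ^n W → M` -/
noncomputable def sumZ (τ : M ≃ₗ[B] M) (P Q : Submodule B M) : (ℤ →₀ WW τ P Q) →ₗ[B] M :=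
  Finsupp.lsum ℕ fun n : ℤ => ((τ ^ n : M ≃ₗ[B] M) : M →ₗ[B] M) ∘ₗ (WW τ P Q).subtype

theorem sumZ_single (n : ℤ) (w : WW τ P Q) :
    sumZ τ P Q (Finsupp.single n w) = (τ ^ n) (w : M) := by
  rw [sumZ, Finsupp.lsum_single]
  rfl

theorem sumZ_apply (f : ℤ →₀ WW τ P Q) :
    sumZ τ P Q f = f.sum fun n w => (τ ^ n) (w : M) := rfl

theorem sumZ_injective (h : Lat τ P Q) (hc : IsCompl P Q) :
    Function.Injective (sumZ τ P Q) := by
  rw [injective_iff_map_eq_zero]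
  intro f hf
  by_contra hne
  have hs : f.support.Nonempty := Finsupp.support_nonempty_iff.mpr hne
  set n₀ := f.support.min' hs with hn₀
  have hmem : n₀ ∈ f.support := Finset.min'_mem _ _
  rw [sumZ_apply, Finsupp.sum, ← Finset.add_sum_erase _ _ hmem] at hf
  have h1 : ∑ n ∈ f.support.erase n₀, (τ ^ n) (f n : M) =
      (τ ^ (n₀ + 1)) (∑ n ∈ f.support.erase n₀, (τ ^ (n - n₀ - 1)) (f n : M)) := by
    rw [map_sum]
    refine Finset.sum_congr rfl fun n _ => ?_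
    have : τ ^ n = τ ^ (n₀ + 1) * τ ^ (n - n₀ - 1) := by
      rw [← zpow_add]
      congr 1
      ring
    rw [this]
    rfl
  have hp : ∑ n ∈ f.support.erase n₀, (τ ^ (n - n₀ - 1)) (f n : M) ∈ P := by
    refine P.sum_mem fun n hn => h.zpow_WW_memP (f n).2 ?_
    have h2 : n₀ ≤ n := Finset.min'_le _ _ (Finset.mem_of_mem_erase hn)
    have h3 : n ≠ n₀ := Finset.ne_of_mem_erase hn
    omega
  set p := ∑ n ∈ f.support.erase n₀, (τ ^ (n - n₀ - 1)) (f n : M)
  rw [h1] at hf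
  have h2 : (f n₀ : M) + τ p = 0 := by
    have h3 : (τ ^ n₀) ((f n₀ : M) + τ p) = 0 := by
      rw [map_add, ← hf, zpow_add_one]
      rfl
    exact (τ ^ n₀).map_eq_zero_iff.mp h3
  have h4 : τ (-p) = (f n₀ : M) := by
    rw [map_neg]
    exact neg_eq_of_add_eq_zero_left h2
  have h5 := Lat.eq_zero_of_WW hc (P.neg_mem hp) (by rw [h4]; exact (f n₀).2)
  rw [h5, map_zero] at h4
  exact (Finsupp.mem_support_iff.mp hmem) (Subtype.ext h4.symm)

/-- elements of `P` -/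
theorem exists_natP (h : Lat τ P Q) (hc : IsCompl P Q) (n : ℕ) :
    ∀ {p : M}, p ∈ P → ∃ w : ℕ → WW τ P Q, ∃ p' ∈ P,
      p = ∑ i ∈ Finset.range n, (τ ^ (i : ℤ)) (w i : M) + (τ ^ (n : ℤ)) p' := by
  induction n with
  | zero => exact fun {p} hp => ⟨0, p, hp, by simp⟩
  | succ n ih =>
    intro p hp
    obtain ⟨w, p', hp', e⟩ := ih hp
    obtain ⟨w', hw', p'', hp'', e'⟩ := h.exists_decP hc hp'
    refine ⟨fun i => if i = n then ⟨w', hw'⟩ else w i, p'', hp'', ?_⟩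
    rw [Finset.sum_range_succ]
    beta_reduce
    have h1 : ∑ i ∈ Finset.range n, (τ ^ (i : ℤ))
        ((if i = n then (⟨w', hw'⟩ : WW τ P Q) else w i : WW τ P Q) : M) =
        ∑ i ∈ Finset.range n, (τ ^ (i : ℤ)) (w i : M) := by
      refine Finset.sum_congr rfl fun i hi => ?_
      rw [if_neg (Finset.mem_range.mp hi).ne]
    rw [h1, if_pos rfl, e, e', add_assoc]
    congr 1
    rw [map_add]
    congr 1

/-- elements of `Q` -/
theorem exists_natQ (h : Lat τ P Q) (hc : IsCompl P Q) (n : ℕ) :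
    ∀ {q : M}, q ∈ Q → ∃ w : ℕ → WW τ P Q, ∃ q' ∈ Q,
      q = ∑ i ∈ Finset.range n, (τ ^ (-(i : ℤ) - 1)) (w i : M) + (τ ^ (-(n : ℤ))) q' := by
  induction n with
  | zero => exact fun {q} hq => ⟨0, q, hq, by simp⟩
  | succ n ih =>
    intro q hq
    obtain ⟨w, q', hq', e⟩ := ih hq
    obtain ⟨w', hw', q'', hq'', e'⟩ := h.exists_decQ hc hq'
    refine ⟨fun i => if i = n then ⟨w', hw'⟩ else w i, q'', hq'', ?_⟩
    rw [Finset.sum_range_succ]
    beta_reduce
    have h1 : ∑ i ∈ Finset.range n, (τ ^ (-(i : ℤ) - 1))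
        ((if i = n then (⟨w', hw'⟩ : WW τ P Q) else w i : WW τ P Q) : M) =
        ∑ i ∈ Finset.range n, (τ ^ (-(i : ℤ) - 1)) (w i : M) := by
      refine Finset.sum_congr rfl fun i hi => ?_
      rw [if_neg (Finset.mem_range.mp hi).ne]
    have h2 : ∀ m : M, (τ ^ (-(n : ℤ))) (τ.symm m) = (τ ^ (-(n : ℤ) - 1)) m := by
      intro m
      rw [zpow_sub_one]
      rfl
    rw [h1, if_pos rfl, e, e', add_assoc]
    congr 1
    rw [map_add, h2, h2]
    congr 3
    push_cast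
    ring

/-- the map `⊕_{n ≥ 0} τ^n W → M` -/
noncomputable def sumP (τ : M ≃ₗ[B] M) (P Q : Submodule B M) : (ℕ →₀ WW τ P Q) →ₗ[B] M :=
  Finsupp.lsum ℕ fun n : ℕ => ((τ ^ n : M ≃ₗ[B] M) : M →ₗ[B] M) ∘ₗ (WW τ P Q).subtype

/-- the map `⊕_{n ≥ 0} τ^{-n-1} W → M` -/
noncomputable def sumQ (τ : M ≃ₗ[B] M) (P Q : Submodule B M) : (ℕ →₀ WW τ P Q) →ₗ[B] M :=
  Finsupp.lsum ℕ fun n : ℕ => ((τ⁻¹ ^ (n + 1) : M ≃ₗ[B] M) : M →ₗ[B] M) ∘ₗ
    (WW τ P Q).subtype

theorem sumP_single (n : ℕ) (w : WW τ P Q) :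
    sumP τ P Q (Finsupp.single n w) = (τ ^ n) (w : M) := by
  rw [sumP, Finsupp.lsum_single]
  rfl

theorem sumQ_single (n : ℕ) (w : WW τ P Q) :
    sumQ τ P Q (Finsupp.single n w) = (τ⁻¹ ^ (n + 1)) (w : M) := by
  rw [sumQ, Finsupp.lsum_single]
  rfl

theorem sumP_eq (f : ℕ →₀ WW τ P Q) :
    sumP τ P Q f = sumZ τ P Q (f.mapDomain (fun n : ℕ => (n : ℤ))) := by
  induction f using Finsupp.induction_linear with
  | zero => simp
  | add f g hf hg => rw [map_add, hf, hg, Finsupp.mapDomain_add, map_add]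
  | single n w => rw [Finsupp.mapDomain_single, sumZ_single, sumP_single, zpow_natCast]

theorem sumQ_eq (f : ℕ →₀ WW τ P Q) :
    sumQ τ P Q f = sumZ τ P Q (f.mapDomain (fun n : ℕ => -(n : ℤ) - 1)) := by
  induction f using Finsupp.induction_linear with
  | zero => simp
  | add f g hf hg => rw [map_add, hf, hg, Finsupp.mapDomain_add, map_add]
  | single n w =>
    rw [Finsupp.mapDomain_single, sumZ_single, sumQ_single]
    congr 1
    rw [inv_pow, ← zpow_natCast, ← zpow_neg]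
    congr 1
    push_cast
    ring

theorem sumP_injective (h : Lat τ P Q) (hc : IsCompl P Q) :
    Function.Injective (sumP τ P Q) := by
  intro f g hfg
  rw [sumP_eq, sumP_eq] at hfg
  exact Finsupp.mapDomain_injective Nat.cast_injective (sumZ_injective h hc hfg)

theorem sumQ_injective (h : Lat τ P Q) (hc : IsCompl P Q) :
    Function.Injective (sumQ τ P Q) := by
  intro f g hfg
  rw [sumQ_eq, sumQ_eq] at hfg
  refine Finsupp.mapDomain_injective (fun a b hab => ?_) (sumZ_injective h hc hfg)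
  have hab' : -(a : ℤ) - 1 = -(b : ℤ) - 1 := hab
  omega

theorem pow_inv_apply (n : ℕ) (m : M) : (τ ^ n) ((τ⁻¹ ^ n) m) = m := by
  have : τ ^ n * τ⁻¹ ^ n = 1 := by rw [inv_pow, mul_inv_cancel]
  exact DFunLike.congr_fun this m

theorem inv_pow_apply (n : ℕ) (m : M) : (τ⁻¹ ^ n) ((τ ^ n) m) = m := by
  have : τ⁻¹ ^ n * τ ^ n = 1 := by rw [inv_pow, inv_mul_cancel]
  exact DFunLike.congr_fun this m

theorem range_sumP (h : Lat τ P Q) (hc : IsCompl P Q) : LinearMap.range (sumP τ P Q) = P := by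
  apply le_antisymm
  · rintro _ ⟨f, rfl⟩
    induction f using Finsupp.induction_linear with
    | zero => rw [map_zero]; exact P.zero_mem
    | add f g hf hg => rw [map_add]; exact P.add_mem hf hg
    | single n w =>
      rw [sumP_single]
      exact h.pow_memP (mem_WW.mp w.2).1 n
  · intro p hp
    obtain ⟨n, hn⟩ := h.exQ p
    obtain ⟨w, p', hp', e⟩ := exists_natP h hc n hp
    have h1 : p' = 0 := by
      have h2 : p' ∈ P ⊓ Q := by
        refine ⟨hp', ?_⟩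
        have h3 : p' = (τ⁻¹ ^ n) p -
            ∑ i ∈ Finset.range n, (τ ^ ((i : ℤ) - n)) (w i : M) := by
          rw [e, map_add, map_sum, zpow_natCast, inv_pow_apply, eq_sub_iff_add_eq, add_comm]
          congr 1
          refine Finset.sum_congr rfl fun i _ => ?_
          have : τ ^ ((i : ℤ) - n) = τ⁻¹ ^ n * τ ^ (i : ℤ) := by
            rw [inv_pow, ← zpow_natCast, ← zpow_neg, ← zpow_add]
            congr 1
            ring
          rw [this]
          rfl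
        rw [h3]
        refine Q.sub_mem hn (Q.sum_mem fun i hi => h.zpow_WW_memQ (w i).2 ?_)
        have := Finset.mem_range.mp hi
        omega
      rwa [hc.inf_eq_bot, Submodule.mem_bot] at h2
    rw [e, h1, map_zero, add_zero]
    refine Submodule.sum_mem _ fun i _ => ⟨Finsupp.single i (w i), ?_⟩
    rw [sumP_single, zpow_natCast]

theorem range_sumQ (h : Lat τ P Q) (hc : IsCompl P Q) : LinearMap.range (sumQ τ P Q) = Q := by
  apply le_antisymm
  · rintro _ ⟨f, rfl⟩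
    induction f using Finsupp.induction_linear with
    | zero => rw [map_zero]; exact Q.zero_mem
    | add f g hf hg => rw [map_add]; exact Q.add_mem hf hg
    | single n w =>
      rw [sumQ_single, inv_pow, ← zpow_natCast, ← zpow_neg]
      exact h.zpow_WW_memQ w.2 (by push_cast; omega)
  · intro q hq
    obtain ⟨n, hn⟩ := h.exP q
    obtain ⟨w, q', hq', e⟩ := exists_natQ h hc n hq
    have h1 : q' = 0 := by
      have h2 : q' ∈ P ⊓ Q := by
        refine ⟨?_, hq'⟩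
        have h3 : q' = (τ ^ n) q -
            ∑ i ∈ Finset.range n, (τ ^ ((n : ℤ) - i - 1)) (w i : M) := by
          rw [e, map_add, map_sum, eq_sub_iff_add_eq, add_comm]
          congr 1
          · refine Finset.sum_congr rfl fun i _ => ?_
            have : τ ^ ((n : ℤ) - i - 1) = τ ^ n * τ ^ (-(i : ℤ) - 1) := by
              rw [← zpow_natCast, ← zpow_add]
              congr 1
              ring
            rw [this]
            rfl
          · rw [zpow_neg, zpow_natCast, ← inv_pow, pow_inv_apply]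
        rw [h3]
        refine P.sub_mem hn (P.sum_mem fun i hi => h.zpow_WW_memP (w i).2 ?_)
        have := Finset.mem_range.mp hi
        omega
      rwa [hc.inf_eq_bot, Submodule.mem_bot] at h2
    rw [e, h1, map_zero, add_zero]
    refine Submodule.sum_mem _ fun i _ => ⟨Finsupp.single i (w i), ?_⟩
    rw [sumQ_single, inv_pow, ← zpow_natCast, ← zpow_neg]
    congr 2
    push_cast
    ring

theorem sumZ_surjective (h : Lat τ P Q) (hc : IsCompl P Q) :
    Function.Surjective (sumZ τ P Q) := by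
  intro m
  obtain ⟨p, hp, q, hq, rfl⟩ := Submodule.mem_sup.mp
    (show m ∈ P ⊔ Q by rw [hc.sup_eq_top]; trivial)
  rw [← range_sumP h hc] at hp
  rw [← range_sumQ h hc] at hq
  obtain ⟨f, rfl⟩ := hp
  obtain ⟨g, rfl⟩ := hq
  exact ⟨_, by rw [map_add, sumP_eq, sumQ_eq]⟩

/-- **`P = ⊕_{n ≥ 0} τ^n W`** -/
noncomputable def equivP (h : Lat τ P Q) (hc : IsCompl P Q) : (ℕ →₀ WW τ P Q) ≃ₗ[B] P :=
  LinearEquiv.ofInjective (sumP τ P Q) (sumP_injective h hc) ≪≫ₗ
    LinearEquiv.ofEq _ _ (range_sumP h hc)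

/-- **`Q = ⊕_{n ≥ 0} τ^{-n-1} W`** -/
noncomputable def equivQ (h : Lat τ P Q) (hc : IsCompl P Q) : (ℕ →₀ WW τ P Q) ≃ₗ[B] Q :=
  LinearEquiv.ofInjective (sumQ τ P Q) (sumQ_injective h hc) ≪≫ₗ
    LinearEquiv.ofEq _ _ (range_sumQ h hc)

/-- **`M = ⊕ τ^n W`** -/
noncomputable def equivZ (h : Lat τ P Q) (hc : IsCompl P Q) : (ℤ →₀ WW τ P Q) ≃ₗ[B] M :=
  LinearEquiv.ofBijective (sumZ τ P Q) ⟨sumZ_injective h hc, sumZ_surjective h hc⟩

theorem coe_equivP (h : Lat τ P Q) (hc : IsCompl P Q) (f : ℕ →₀ WW τ P Q) :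
    (equivP h hc f : M) = sumP τ P Q f := rfl

theorem coe_equivQ (h : Lat τ P Q) (hc : IsCompl P Q) (f : ℕ →₀ WW τ P Q) :
    (equivQ h hc f : M) = sumQ τ P Q f := rfl

theorem equivZ_apply (h : Lat τ P Q) (hc : IsCompl P Q) (f : ℤ →₀ WW τ P Q) :
    equivZ h hc f = sumZ τ P Q f := rfl

/-- `τ P` as a submodule of `P` -/
def tauP (τ : M ≃ₗ[B] M) (P : Submodule B M) : Submodule B P :=
  (P.map (τ : M →ₗ[B] M)).comap P.subtype

theorem mem_tauP {p : P} : p ∈ tauP τ P ↔ τ.symm (p : M) ∈ P := by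
  rw [tauP, Submodule.mem_comap, Submodule.mem_map]
  constructor
  · rintro ⟨p', hp', e⟩
    have : τ.symm (p : M) = p' := by
      rw [LinearEquiv.symm_apply_eq]
      exact e.symm
    rwa [this]
  · intro h
    exact ⟨_, h, τ.apply_symm_apply _⟩

/-- `W → P/τP` -/
def toQuot (τ : M ≃ₗ[B] M) (P Q : Submodule B M) : WW τ P Q →ₗ[B] P ⧸ tauP τ P :=
  (tauP τ P).mkQ ∘ₗ Submodule.inclusion inf_le_left

theorem toQuot_bijective (h : Lat τ P Q) (hc : IsCompl P Q) :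
    Function.Bijective (toQuot τ P Q) := by
  constructor
  · rw [injective_iff_map_eq_zero]
    intro w hw
    have h1 : (⟨(w : M), (mem_WW.mp w.2).1⟩ : P) ∈ tauP τ P := by
      rw [← Submodule.Quotient.mk_eq_zero]
      exact hw
    rw [mem_tauP] at h1
    have h2 := Lat.eq_zero_of_WW hc h1 (by rw [τ.apply_symm_apply]; exact w.2)
    rw [LinearEquiv.map_eq_zero_iff] at h2
    exact Subtype.ext h2
  · intro x
    obtain ⟨p, rfl⟩ := Submodule.Quotient.mk_surjective _ x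
    obtain ⟨w, hw, p', hp', e⟩ := h.exists_decP hc p.2
    refine ⟨⟨w, hw⟩, ?_⟩
    show Submodule.Quotient.mk _ = _
    rw [Submodule.Quotient.eq, mem_tauP]
    have : τ.symm (w - (p : M)) = -p' := by
      rw [e, sub_add_cancel_left, map_neg, τ.symm_apply_apply]
    show τ.symm (w - (p : M)) ∈ P
    rw [this]
    exact P.neg_mem hp'

/-- **`W ≃ P/τP`** -/
noncomputable def equivQuot (h : Lat τ P Q) (hc : IsCompl P Q) :
    WW τ P Q ≃ₗ[B] P ⧸ tauP τ P :=
  LinearEquiv.ofBijective (toQuot τ P Q) (toQuot_bijective h hc)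

end Fermat.Agent.JF
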