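import Mathlib
import Fermat.Agent.JF.Split

/-!
# Coefficients in `M = ⊕ τ^n W` (S25, block F2)

For `h : Lat τ P Q` and `hc : IsCompl P Q`, `coef h hc n : M →ₗ[B] W` is the `n`-th coefficient.
-/

set_option autoImplicit false

namespace Fermat.Agent.JF

variable {B M : Type*} [CommRing B] [AddCommGroup M] [Module B M]
variable {τ : M ≃ₗ[B] M} {P Q : Submodule B M}

/-- the `n`-th coefficient -/
noncomputable def coef (h : Lat τ P Q) (hc : IsCompl P Q) (n : ℤ) : M →ₗ[B] WW τ P Q :=
  Finsupp.lapply n ∘ₗ ((equivZ h hc).symm : M →ₗ[B] (ℤ →₀ WW τ P Q))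

variable (h : Lat τ P Q) (hc : IsCompl P Q)

theorem coef_sumZ (n : ℤ) (f : ℤ →₀ WW τ P Q) : coef h hc n (sumZ τ P Q f) = f n := by
  show ((equivZ h hc).symm (equivZ h hc f)) n = f n
  rw [LinearEquiv.symm_apply_apply]

theorem coef_zpow_W (n i : ℤ) (w : WW τ P Q) :
    coef h hc n ((τ ^ i) (w : M)) = if n = i then w else 0 := by
  rw [← sumZ_single, coef_sumZ, Finsupp.single_apply]
  simp [eq_comm]

theorem coef_W (n : ℤ) (w : WW τ P Q) :
    coef h hc n (w : M) = if n = 0 then w else 0 := by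
  have := coef_zpow_W h hc n 0 w
  rwa [zpow_zero] at this

theorem coef_zpow (n i : ℤ) (m : M) : coef h hc n ((τ ^ i) m) = coef h hc (n - i) m := by
  obtain ⟨f, rfl⟩ := sumZ_surjective h hc m
  induction f using Finsupp.induction_linear with
  | zero => simp
  | add f g hf hg => simp only [map_add, hf, hg]
  | single j w =>
    rw [sumZ_single]
    have : (τ ^ i) ((τ ^ j) (w : M)) = (τ ^ (i + j)) (w : M) := by
      rw [zpow_add]; rfl
    rw [this, coef_zpow_W, coef_zpow_W]
    have : n = i + j ↔ n - i = j := by omega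
    simp only [this]

theorem coef_tau (n : ℤ) (m : M) : coef h hc n (τ m) = coef h hc (n - 1) m := by
  have := coef_zpow h hc n 1 m
  rwa [zpow_one] at this

theorem coef_tau_symm (n : ℤ) (m : M) : coef h hc n (τ.symm m) = coef h hc (n + 1) m := by
  have := coef_zpow h hc n (-1) m
  rw [zpow_neg_one] at this
  rw [sub_neg_eq_add] at this
  exact this

/-- finitely many coefficients are non-zero -/
theorem exists_coef (m : M) : ∃ s : Finset ℤ, (∀ n, n ∉ s → coef h hc n m = 0) ∧
    m = ∑ n ∈ s, (τ ^ n) (coef h hc n m : M) := by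
  obtain ⟨f, rfl⟩ := sumZ_surjective h hc m
  refine ⟨f.support, fun n hn => ?_, ?_⟩
  · rw [coef_sumZ]
    exact Finsupp.notMem_support_iff.mp hn
  · conv_lhs => rw [sumZ_apply, Finsupp.sum]
    simp only [coef_sumZ]

theorem coef_ext {m m' : M} (e : ∀ n, coef h hc n m = coef h hc n m') : m = m' := by
  apply (equivZ h hc).symm.injective
  ext1 n
  exact e n

theorem coef_eq_zero_of_memP {p : M} (hp : p ∈ P) {n : ℤ} (hn : n < 0) :
    coef h hc n p = 0 := by
  rw [← range_sumP h hc] at hp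
  obtain ⟨f, rfl⟩ := hp
  induction f using Finsupp.induction_linear with
  | zero => simp
  | add f g hf hg => rw [map_add, map_add, hf, hg, add_zero]
  | single j w =>
    rw [sumP_single, ← zpow_natCast, coef_zpow_W, if_neg (by omega)]

theorem coef_eq_zero_of_memQ {q : M} (hq : q ∈ Q) {n : ℤ} (hn : 0 ≤ n) :
    coef h hc n q = 0 := by
  rw [← range_sumQ h hc] at hq
  obtain ⟨f, rfl⟩ := hq
  induction f using Finsupp.induction_linear with
  | zero => simp
  | add f g hf hg => rw [map_add, map_add, hf, hg, add_zero]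
  | single j w =>
    rw [sumQ_single, inv_pow, ← zpow_natCast, ← zpow_neg, coef_zpow_W,
      if_neg (by push_cast; omega)]

theorem memP_iff {m : M} : m ∈ P ↔ ∀ n < 0, coef h hc n m = 0 := by
  refine ⟨fun hm n hn => coef_eq_zero_of_memP h hc hm hn, fun e => ?_⟩
  obtain ⟨s, hs, hm⟩ := exists_coef h hc m
  rw [hm]
  refine P.sum_mem fun n _ => ?_
  rcases lt_or_ge n 0 with hn | hn
  · rw [e n hn, Submodule.coe_zero, map_zero]
    exact P.zero_mem
  · exact h.zpow_WW_memP (coef h hc n m).2 hn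

theorem memQ_iff {m : M} : m ∈ Q ↔ ∀ n, 0 ≤ n → coef h hc n m = 0 := by
  refine ⟨fun hm n hn => coef_eq_zero_of_memQ h hc hm hn, fun e => ?_⟩
  obtain ⟨s, hs, hm⟩ := exists_coef h hc m
  rw [hm]
  refine Q.sum_mem fun n _ => ?_
  rcases lt_or_ge n 0 with hn | hn
  · exact h.zpow_WW_memQ (coef h hc n m).2 hn
  · rw [e n hn, Submodule.coe_zero, map_zero]
    exact Q.zero_mem

/-- `coef 0` is the projection onto `W` -/
theorem coef_zero_eq {m : M} (hm : m ∈ WW τ P Q) : (coef h hc 0 m : M) = m := by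
  have := coef_W h hc 0 ⟨m, hm⟩
  rw [if_pos rfl] at this
  exact congrArg Subtype.val this

/-- `m ∈ P` is `coef 0 m` modulo `τ P` -/
theorem exists_coef_zero_add {p : M} (hp : p ∈ P) : ∃ p' ∈ P, p = coef h hc 0 p + τ p' := by
  obtain ⟨w, hw, p', hp', e⟩ := h.exists_decP hc hp
  refine ⟨p', hp', ?_⟩
  have h1 : coef h hc 0 p = ⟨w, hw⟩ := by
    rw [e, map_add, coef_tau, coef_eq_zero_of_memP h hc hp' (by omega), add_zero]
    exact Subtype.ext (coef_zero_eq h hc hw)
  rw [h1]
  exact e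

end Fermat.Agent.JF
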