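import Mathlib
import Fermat.Agent.JF.Coef

/-!
# Base change of acyclic lattices (S25, block F2)
-/

set_option autoImplicit false

open TensorProduct

namespace Fermat.Agent.JF

variable {B M : Type*} [CommRing B] [AddCommGroup M] [Module B M]
variable {τ : M ≃ₗ[B] M} {P Q : Submodule B M}
variable {B' : Type*} [CommRing B'] [Algebra B B'] {τ' : (B' ⊗[B] M) ≃ₗ[B'] (B' ⊗[B] M)}

theorem bc_tau (hτ : ∀ m : M, τ' (1 ⊗ₜ[B] m) = 1 ⊗ₜ[B] τ m) (b : B') (m : M) :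
    τ' (b ⊗ₜ[B] m) = b ⊗ₜ[B] τ m := by
  have h1 : ∀ x : M, b ⊗ₜ[B] x = b • ((1 : B') ⊗ₜ[B] x) := fun x => by
    rw [TensorProduct.smul_tmul', smul_eq_mul, mul_one]
  rw [h1, map_smul, hτ, ← h1]

theorem bc_tau_symm (hτ : ∀ m : M, τ' (1 ⊗ₜ[B] m) = 1 ⊗ₜ[B] τ m) (b : B') (m : M) :
    τ'.symm (b ⊗ₜ[B] m) = b ⊗ₜ[B] τ.symm m := by
  rw [LinearEquiv.symm_apply_eq, bc_tau hτ, τ.apply_symm_apply]

theorem bc_pow (hτ : ∀ m : M, τ' (1 ⊗ₜ[B] m) = 1 ⊗ₜ[B] τ m) (n : ℕ) (b : B') (m : M) :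
    (τ' ^ n) (b ⊗ₜ[B] m) = b ⊗ₜ[B] (τ ^ n) m := by
  induction n with
  | zero => simp
  | succ n ih =>
    rw [pow_succ', pow_succ']
    show τ' ((τ' ^ n) (b ⊗ₜ[B] m)) = b ⊗ₜ[B] (τ ((τ ^ n) m))
    rw [ih, bc_tau hτ]

theorem bc_inv_pow (hτ : ∀ m : M, τ' (1 ⊗ₜ[B] m) = 1 ⊗ₜ[B] τ m) (n : ℕ) (b : B') (m : M) :
    (τ'⁻¹ ^ n) (b ⊗ₜ[B] m) = b ⊗ₜ[B] (τ⁻¹ ^ n) m := by
  induction n with
  | zero => simp
  | succ n ih =>
    rw [pow_succ', pow_succ']
    show τ'.symm ((τ'⁻¹ ^ n) (b ⊗ₜ[B] m)) = b ⊗ₜ[B] (τ.symm ((τ⁻¹ ^ n) m))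
    rw [ih, bc_tau_symm hτ]

theorem bc_zpow (hτ : ∀ m : M, τ' (1 ⊗ₜ[B] m) = 1 ⊗ₜ[B] τ m) (n : ℤ) (b : B') (m : M) :
    (τ' ^ n) (b ⊗ₜ[B] m) = b ⊗ₜ[B] (τ ^ n) m := by
  rcases le_total 0 n with hn | hn
  · obtain ⟨n, rfl⟩ := Int.eq_ofNat_of_zero_le hn
    rw [zpow_natCast, zpow_natCast]
    exact bc_pow hτ n b m
  · obtain ⟨j, hj⟩ := Int.eq_ofNat_of_zero_le (neg_nonneg.mpr hn)
    have e : n = -(j : ℤ) := by omega
    rw [e, zpow_neg, zpow_neg, zpow_natCast, zpow_natCast, ← inv_pow, ← inv_pow]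
    exact bc_inv_pow hτ j b m

theorem bc_le {P : Submodule B M} {N : Submodule B' (B' ⊗[B] M)}
    (h : ∀ m ∈ P, (1 : B') ⊗ₜ[B] m ∈ N) : P.baseChange B' ≤ N := by
  rw [Submodule.baseChange_eq_span, Submodule.span_le]
  rintro _ ⟨m, hm, rfl⟩
  exact h m hm

theorem bc_memP (h : Lat τ P Q) (hτ : ∀ m : M, τ' (1 ⊗ₜ[B] m) = 1 ⊗ₜ[B] τ m)
    {x : B' ⊗[B] M} (hx : x ∈ P.baseChange B') : τ' x ∈ P.baseChange B' := by
  have : P.baseChange B' ≤ (P.baseChange B').comap (τ' : (B' ⊗[B] M) →ₗ[B'] (B' ⊗[B] M)) :=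
    bc_le fun m hm => by
      show τ' (1 ⊗ₜ[B] m) ∈ P.baseChange B'
      rw [hτ]
      exact Submodule.tmul_mem_baseChange_of_mem _ (h.memP m hm)
  exact this hx

theorem bc_memQ (h : Lat τ P Q) (hτ : ∀ m : M, τ' (1 ⊗ₜ[B] m) = 1 ⊗ₜ[B] τ m)
    {x : B' ⊗[B] M} (hx : x ∈ Q.baseChange B') : τ'.symm x ∈ Q.baseChange B' := by
  have : Q.baseChange B' ≤
      (Q.baseChange B').comap (τ'.symm : (B' ⊗[B] M) →ₗ[B'] (B' ⊗[B] M)) :=
    bc_le fun m hm => by
      show τ'.symm (1 ⊗ₜ[B] m) ∈ Q.baseChange B'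
      rw [bc_tau_symm hτ]
      exact Submodule.tmul_mem_baseChange_of_mem _ (h.memQ m hm)
  exact this hx

variable (B') in
theorem Lat.bc (h : Lat τ P Q) (hτ : ∀ m : M, τ' (1 ⊗ₜ[B] m) = 1 ⊗ₜ[B] τ m) :
    Lat τ' (P.baseChange B') (Q.baseChange B') where
  memP p hp := bc_memP h hτ hp
  memQ p hp := bc_memQ h hτ hp
  exP m := by
    have key : ∀ (n j : ℕ) (x : B' ⊗[B] M), (τ' ^ n) x ∈ P.baseChange B' →
        (τ' ^ (n + j)) x ∈ P.baseChange B' := by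
      intro n j x hx
      induction j with
      | zero => exact hx
      | succ j ih =>
        rw [← add_assoc, pow_succ']
        exact bc_memP h hτ ih
    induction m using TensorProduct.induction_on with
    | zero => exact ⟨0, by rw [map_zero]; exact Submodule.zero_mem _⟩
    | tmul b m =>
      obtain ⟨n, hn⟩ := h.exP m
      exact ⟨n, by rw [bc_pow hτ]; exact Submodule.tmul_mem_baseChange_of_mem _ hn⟩
    | add x y hx hy =>
      obtain ⟨n, hn⟩ := hx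
      obtain ⟨n', hn'⟩ := hy
      refine ⟨n + n', ?_⟩
      rw [map_add]
      refine Submodule.add_mem _ (key n n' x hn) ?_
      rw [add_comm n n']
      exact key n' n y hn'
  exQ m := by
    have key : ∀ (n j : ℕ) (x : B' ⊗[B] M), (τ'⁻¹ ^ n) x ∈ Q.baseChange B' →
        (τ'⁻¹ ^ (n + j)) x ∈ Q.baseChange B' := by
      intro n j x hx
      induction j with
      | zero => exact hx
      | succ j ih =>
        rw [← add_assoc, pow_succ']
        exact bc_memQ h hτ ih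
    induction m using TensorProduct.induction_on with
    | zero => exact ⟨0, by rw [map_zero]; exact Submodule.zero_mem _⟩
    | tmul b m =>
      obtain ⟨n, hn⟩ := h.exQ m
      exact ⟨n, by rw [bc_inv_pow hτ]; exact Submodule.tmul_mem_baseChange_of_mem _ hn⟩
    | add x y hx hy =>
      obtain ⟨n, hn⟩ := hx
      obtain ⟨n', hn'⟩ := hy
      refine ⟨n + n', ?_⟩
      rw [map_add]
      refine Submodule.add_mem _ (key n n' x hn) ?_
      rw [add_comm n n']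
      exact key n' n y hn'

variable (B') in
/-- acyclicity is stable under base change -/
theorem isCompl_bc (hc : IsCompl P Q) : IsCompl (P.baseChange B') (Q.baseChange B') := by
  constructor
  · rw [Submodule.disjoint_def]
    intro x hP hQ
    obtain ⟨π, hπP, hπQ⟩ : ∃ π : M →ₗ[B] M, (∀ p ∈ P, π p = p) ∧ ∀ q ∈ Q, π q = 0 := by
      refine ⟨P.subtype ∘ₗ P.projectionOnto Q hc, fun p hp => ?_, fun q hq => ?_⟩
      · have := Submodule.projectionOnto_apply_left hc ⟨p, hp⟩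
        exact congrArg Subtype.val this
      · have := Submodule.projectionOnto_apply_right hc ⟨q, hq⟩
        exact congrArg Subtype.val this
    have h1 : P.baseChange B' ≤ LinearMap.eqLocus (π.baseChange B') LinearMap.id :=
      bc_le fun m hm => by
        rw [LinearMap.mem_eqLocus, LinearMap.baseChange_tmul, hπP m hm, LinearMap.id_apply]
    have h2 : Q.baseChange B' ≤ LinearMap.ker (π.baseChange B') :=
      bc_le fun m hm => by
        rw [LinearMap.mem_ker, LinearMap.baseChange_tmul, hπQ m hm, tmul_zero]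
    have h3 := h1 hP
    have h4 := h2 hQ
    rw [LinearMap.mem_eqLocus, LinearMap.id_apply] at h3
    rw [LinearMap.mem_ker] at h4
    rw [← h3, h4]
  · rw [codisjoint_iff, eq_top_iff]
    rintro x -
    induction x using TensorProduct.induction_on with
    | zero => exact Submodule.zero_mem _
    | tmul b m =>
      obtain ⟨p, hp, q, hq, rfl⟩ := Submodule.mem_sup.mp
        (show m ∈ P ⊔ Q by rw [hc.sup_eq_top]; trivial)
      rw [tmul_add]
      exact Submodule.add_mem_sup (Submodule.tmul_mem_baseChange_of_mem _ hp)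
        (Submodule.tmul_mem_baseChange_of_mem _ hq)
    | add x y hx hy => exact Submodule.add_mem _ hx hy

theorem bc_WW_le (hτ : ∀ m : M, τ' (1 ⊗ₜ[B] m) = 1 ⊗ₜ[B] τ m) :
    (WW τ P Q).baseChange B' ≤ WW τ' (P.baseChange B') (Q.baseChange B') :=
  bc_le fun m hm => by
    rw [mem_WW, bc_tau_symm hτ]
    exact ⟨Submodule.tmul_mem_baseChange_of_mem _ (mem_WW.mp hm).1,
      Submodule.tmul_mem_baseChange_of_mem _ (mem_WW.mp hm).2⟩

/-- **the fibre commutes with base change** -/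
theorem bc_WW (h : Lat τ P Q) (hc : IsCompl P Q)
    (hτ : ∀ m : M, τ' (1 ⊗ₜ[B] m) = 1 ⊗ₜ[B] τ m) :
    WW τ' (P.baseChange B') (Q.baseChange B') = (WW τ P Q).baseChange B' := by
  apply le_antisymm _ (bc_WW_le hτ)
  intro x hx
  have h1 : P.baseChange B' ≤ (WW τ P Q).baseChange B' ⊔
      (P.baseChange B').map (τ' : (B' ⊗[B] M) →ₗ[B'] (B' ⊗[B] M)) :=
    bc_le fun m hm => by
      obtain ⟨w, hw, p, hp, rfl⟩ := h.exists_decP hc hm
      rw [tmul_add]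
      refine Submodule.add_mem_sup (Submodule.tmul_mem_baseChange_of_mem _ hw) ⟨_,
        Submodule.tmul_mem_baseChange_of_mem (1 : B') hp, hτ p⟩
  obtain ⟨w, hw, _, ⟨p, hp, rfl⟩, e⟩ := Submodule.mem_sup.mp (h1 (mem_WW.mp hx).1)
  have h2 : τ' p ∈ WW τ' (P.baseChange B') (Q.baseChange B') := by
    have : τ' p = x - w := by rw [← e]; exact (add_sub_cancel_left _ _).symm
    rw [this]
    exact Submodule.sub_mem _ hx (bc_WW_le hτ hw)
  have h3 := Lat.eq_zero_of_WW (isCompl_bc B' hc) hp h2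
  rw [h3, map_zero, add_zero] at e
  rwa [← e]

/-- `B' ⊗ W → W'` -/
noncomputable def bcW (hτ : ∀ m : M, τ' (1 ⊗ₜ[B] m) = 1 ⊗ₜ[B] τ m) :
    B' ⊗[B] WW τ P Q →ₗ[B'] WW τ' (P.baseChange B') (Q.baseChange B') :=
  (Submodule.inclusion (bc_WW_le hτ)) ∘ₗ (WW τ P Q).toBaseChange B'

theorem coe_bcW (hτ : ∀ m : M, τ' (1 ⊗ₜ[B] m) = 1 ⊗ₜ[B] τ m) (x : B' ⊗[B] WW τ P Q) :
    (bcW (P := P) (Q := Q) hτ x : B' ⊗[B] M) = (WW τ P Q).subtype.baseChange B' x := rfl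

theorem coe_bcW_tmul (hτ : ∀ m : M, τ' (1 ⊗ₜ[B] m) = 1 ⊗ₜ[B] τ m) (b : B') (w : WW τ P Q) :
    (bcW (P := P) (Q := Q) hτ (b ⊗ₜ w) : B' ⊗[B] M) = b ⊗ₜ (w : M) := rfl

theorem bcW_bijective (h : Lat τ P Q) (hc : IsCompl P Q)
    (hτ : ∀ m : M, τ' (1 ⊗ₜ[B] m) = 1 ⊗ₜ[B] τ m) :
    Function.Bijective (bcW (P := P) (Q := Q) hτ) := by
  constructor
  · have h1 : (coef h hc 0).baseChange B' ∘ₗ (WW τ P Q).subtype.baseChange B' =
        LinearMap.id := by
      rw [← LinearMap.baseChange_comp]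
      have : coef h hc 0 ∘ₗ (WW τ P Q).subtype = LinearMap.id := by
        ext w
        exact coef_zero_eq h hc w.2
      rw [this]
      exact LinearMap.baseChange_id
    intro x y hxy
    have h2 := congrArg (fun z : WW τ' (P.baseChange B') (Q.baseChange B') =>
      (coef h hc 0).baseChange B' (z : B' ⊗[B] M)) hxy
    simp only [coe_bcW] at h2
    have h3 := fun z => LinearMap.congr_fun h1 z
    simp only [LinearMap.comp_apply, LinearMap.id_apply] at h3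
    rwa [h3, h3] at h2
  · rintro ⟨y, hy⟩
    have hy' := hy
    rw [bc_WW h hc hτ] at hy'
    obtain ⟨x, hx⟩ := Submodule.toBaseChange_surjective' B' _ hy'
    exact ⟨x, Subtype.ext hx⟩

/-- **`W' = B' ⊗ W`** -/
noncomputable def bcWEquiv (h : Lat τ P Q) (hc : IsCompl P Q)
    (hτ : ∀ m : M, τ' (1 ⊗ₜ[B] m) = 1 ⊗ₜ[B] τ m) :
    B' ⊗[B] WW τ P Q ≃ₗ[B'] WW τ' (P.baseChange B') (Q.baseChange B') :=
  LinearEquiv.ofBijective (bcW hτ) (bcW_bijective h hc hτ)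

theorem bcWEquiv_tmul (h : Lat τ P Q) (hc : IsCompl P Q)
    (hτ : ∀ m : M, τ' (1 ⊗ₜ[B] m) = 1 ⊗ₜ[B] τ m) (b : B') (w : WW τ P Q) :
    (bcWEquiv h hc hτ (b ⊗ₜ w) : B' ⊗[B] M) = b ⊗ₜ (w : M) := rfl

/-- **coefficients commute with base change** -/
theorem coef_bc (h : Lat τ P Q) (hc : IsCompl P Q)
    (hτ : ∀ m : M, τ' (1 ⊗ₜ[B] m) = 1 ⊗ₜ[B] τ m) (n : ℤ) (b : B') (m : M) :
    (coef (h.bc B' hτ) (isCompl_bc B' hc) n (b ⊗ₜ m) : B' ⊗[B] M) =
      b ⊗ₜ (coef h hc n m : M) := by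
  obtain ⟨f, rfl⟩ := sumZ_surjective h hc m
  rw [coef_sumZ]
  induction f using Finsupp.induction_linear with
  | zero => simp
  | add f g hf hg =>
    rw [map_add, tmul_add, map_add, Submodule.coe_add, hf, hg, Finsupp.add_apply,
      Submodule.coe_add, tmul_add]
  | single j w =>
    rw [sumZ_single]
    have hw : b ⊗ₜ[B] (w : M) ∈ WW τ' (P.baseChange B') (Q.baseChange B') :=
      bc_WW_le hτ (Submodule.tmul_mem_baseChange_of_mem _ w.2)
    have h1 := coef_zpow_W (h.bc B' hτ) (isCompl_bc B' hc) n j ⟨_, hw⟩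
    rw [bc_zpow hτ] at h1
    rw [h1, Finsupp.single_apply]
    by_cases hn : n = j
    · rw [if_pos hn, if_pos hn.symm]
    · rw [if_neg hn, if_neg (Ne.symm hn), Submodule.coe_zero, Submodule.coe_zero, tmul_zero]

end Fermat.Agent.JF
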