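import Mathlib
import Fermat.Agent.JF.Base
import Fermat.Agent.JPC.Base

/-!
# Acyclic line data (S25, block F2)
-/

set_option autoImplicit false

universe u

open TensorProduct

namespace Fermat.Agent.JF

open Fermat.Agent.JPC

variable {k : Type u} [Field k] {X : TwoChart k} {B : Type u} [CommRing B] [Algebra k B]

theorem tau_pow_apply (L : PreLD X B) (n : ℕ) (m : L.M) :
    (L.τ ^ n) m = ((X.t : X.A) ^ n) • m := by
  induction n with
  | zero => simp
  | succ n ih =>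
    rw [pow_succ', pow_succ', mul_smul, ← ih]
    rfl

theorem tau_inv_pow_apply (L : PreLD X B) (n : ℕ) (m : L.M) :
    (L.τ⁻¹ ^ n) m = (((X.t⁻¹ : X.Aˣ) : X.A) ^ n) • m := by
  induction n with
  | zero => simp
  | succ n ih =>
    rw [pow_succ', pow_succ', mul_smul, ← ih]
    rfl

theorem tau_zpow_apply (L : PreLD X B) (n : ℤ) (m : L.M) :
    (L.τ ^ n) m = ((X.t ^ n : X.Aˣ) : X.A) • m := by
  rcases le_total 0 n with hn | hn
  · obtain ⟨n, rfl⟩ := Int.eq_ofNat_of_zero_le hn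
    rw [zpow_natCast, zpow_natCast, Units.val_pow_eq_pow_val, tau_pow_apply]
  · obtain ⟨j, hj⟩ := Int.eq_ofNat_of_zero_le (neg_nonneg.mpr hn)
    have e : n = -(j : ℤ) := by omega
    rw [e, zpow_neg, zpow_neg, zpow_natCast, zpow_natCast, ← inv_pow, ← inv_pow,
      Units.val_pow_eq_pow_val, tau_inv_pow_apply]

/-- the lattices `M0` and `M1` -/
theorem lat (L : PreLD X B) : Lat L.τ L.M0 L.M1 where
  memP p hp := L.smul0 _ X.t_mem p hp
  memQ p hp := L.smul1 _ X.tinv_mem p hp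
  exP m := by
    obtain ⟨n, hn⟩ := L.ex0 m
    exact ⟨n, by rwa [tau_pow_apply]⟩
  exQ m := by
    obtain ⟨n, hn⟩ := L.ex1 m
    exact ⟨n, by rwa [tau_inv_pow_apply]⟩

theorem W_eq (L : PreLD X B) : L.W = WW L.τ L.M0 L.M1 := rfl

theorem mem_W {L : PreLD X B} {m : L.M} :
    m ∈ L.W ↔ m ∈ L.M0 ∧ ((X.t⁻¹ : X.Aˣ) : X.A) • m ∈ L.M1 := mem_WW

theorem W_le (L : PreLD X B) : L.W ≤ L.M0 := inf_le_left

/-- the `n`-th coefficient with respect to `M = ⊕ t^n W` -/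
noncomputable def cf (L : PreLD X B) (hc : L.Acyclic) (n : ℤ) : L.M →ₗ[B] L.W :=
  coef (lat L) hc n

section cf

variable (L : PreLD X B) (hc : L.Acyclic)

theorem cf_t (n : ℤ) (m : L.M) : cf L hc n ((X.t : X.A) • m) = cf L hc (n - 1) m :=
  coef_tau (lat L) hc n m

theorem cf_tinv (n : ℤ) (m : L.M) :
    cf L hc n (((X.t⁻¹ : X.Aˣ) : X.A) • m) = cf L hc (n + 1) m :=
  coef_tau_symm (lat L) hc n m

theorem cf_tzpow (n i : ℤ) (m : L.M) :
    cf L hc n (((X.t ^ i : X.Aˣ) : X.A) • m) = cf L hc (n - i) m := by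
  rw [← tau_zpow_apply]
  exact coef_zpow (lat L) hc n i m

theorem cf_tpow (n : ℤ) (i : ℕ) (m : L.M) :
    cf L hc n ((X.t : X.A) ^ i • m) = cf L hc (n - i) m := by
  have := cf_tzpow L hc n i m
  rwa [zpow_natCast, Units.val_pow_eq_pow_val] at this

theorem cf_W (n : ℤ) (w : L.W) : cf L hc n (w : L.M) = if n = 0 then w else 0 :=
  coef_W (lat L) hc n w

theorem cf_zero_W (w : L.W) : cf L hc 0 (w : L.M) = w := by rw [cf_W, if_pos rfl]

theorem mem_M0_iff {m : L.M} : m ∈ L.M0 ↔ ∀ n < 0, cf L hc n m = 0 := memP_iff (lat L) hc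

theorem mem_M1_iff {m : L.M} : m ∈ L.M1 ↔ ∀ n, 0 ≤ n → cf L hc n m = 0 := memQ_iff (lat L) hc

theorem cf_ext {m m' : L.M} (e : ∀ n, cf L hc n m = cf L hc n m') : m = m' :=
  coef_ext (lat L) hc e

theorem exists_cf (m : L.M) : ∃ s : Finset ℤ, (∀ n, n ∉ s → cf L hc n m = 0) ∧
    m = ∑ n ∈ s, ((X.t ^ n : X.Aˣ) : X.A) • (cf L hc n m : L.M) := by
  obtain ⟨s, h1, h2⟩ := exists_coef (lat L) hc m
  refine ⟨s, h1, ?_⟩
  simp only [tau_zpow_apply] at h2
  exact h2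

theorem exists_cf_zero_add {p : L.M} (hp : p ∈ L.M0) :
    ∃ p' ∈ L.M0, p = cf L hc 0 p + (X.t : X.A) • p' :=
  exists_coef_zero_add (lat L) hc hp

end cf

section ret

/-- a `k`-linear left inverse of the multiplication by `t` on `A0` -/
theorem exists_ret_A0 (X : TwoChart k) :
    ∃ r : X.A0 →ₗ[k] X.A0, ∀ a : X.A0, r (⟨X.t, X.t_mem⟩ * a) = a := by
  have h1 : LinearMap.ker (LinearMap.mulLeft k (⟨X.t, X.t_mem⟩ : X.A0)) = ⊥ := by
    rw [LinearMap.ker_eq_bot]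
    intro a b hab
    apply Subtype.ext
    have h2 : (X.t : X.A) * a = X.t * b := congrArg Subtype.val hab
    exact X.t.isUnit.mul_left_cancel h2
  obtain ⟨r, hr⟩ := (LinearMap.mulLeft k (⟨X.t, X.t_mem⟩ : X.A0)).exists_leftInverse_of_injective h1
  exact ⟨r, fun a => LinearMap.congr_fun hr a⟩

theorem exists_ret_A1 (X : TwoChart k) :
    ∃ r : X.A1 →ₗ[k] X.A1, ∀ a : X.A1, r (⟨_, X.tinv_mem⟩ * a) = a := by
  have h1 : LinearMap.ker (LinearMap.mulLeft k (⟨_, X.tinv_mem⟩ : X.A1)) = ⊥ := by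
    rw [LinearMap.ker_eq_bot]
    intro a b hab
    apply Subtype.ext
    have h2 : ((X.t⁻¹ : X.Aˣ) : X.A) * a = ((X.t⁻¹ : X.Aˣ) : X.A) * b := congrArg Subtype.val hab
    exact (X.t⁻¹).isUnit.mul_left_cancel h2
  obtain ⟨r, hr⟩ := (LinearMap.mulLeft k (⟨_, X.tinv_mem⟩ : X.A1)).exists_leftInverse_of_injective h1
  exact ⟨r, fun a => LinearMap.congr_fun hr a⟩

/-- general statement: `P` a projective module over `B ⊗ R`, `t ∈ R` with a `k`-linear
left inverse of multiplication; then multiplication by `1 ⊗ t` on `P` has a `B`-linear left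
inverse -/
theorem exists_ret_proj {R : Type u} [CommRing R] [Algebra k R] (t : R) (r : R →ₗ[k] R)
    (hr : ∀ a, r (t * a) = a) {P : Type u} [AddCommGroup P] [Module B P]
    [Module (B ⊗[k] R) P] [IsScalarTower B (B ⊗[k] R) P] [Module.Projective (B ⊗[k] R) P] :
    ∃ ρ : P →ₗ[B] P, ∀ p : P, ρ (((1 : B) ⊗ₜ[k] t) • p) = p := by
  obtain ⟨s, hs⟩ := Module.Projective.out (R := B ⊗[k] R) (P := P)
  let r' : B ⊗[k] R →ₗ[B] B ⊗[k] R := r.baseChange B
  have hr' : ∀ x : B ⊗[k] R, r' ((1 ⊗ₜ t) * x) = x := by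
    intro x
    induction x using TensorProduct.induction_on with
    | zero => rw [mul_zero, map_zero]
    | tmul b a =>
      rw [Algebra.TensorProduct.tmul_mul_tmul, one_mul]
      show r.baseChange B (b ⊗ₜ (t * a)) = _
      rw [LinearMap.baseChange_tmul, hr]
    | add x y hx hy => rw [mul_add, map_add, hx, hy]
  let r'' : (P →₀ B ⊗[k] R) →ₗ[B] (P →₀ B ⊗[k] R) := Finsupp.mapRange.linearMap r'
  have hr'' : ∀ f : P →₀ B ⊗[k] R, r'' (((1 : B) ⊗ₜ[k] t) • f) = f := by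
    intro f
    ext p
    show r' ((((1 : B) ⊗ₜ[k] t) • f) p) = f p
    rw [Finsupp.smul_apply, smul_eq_mul, hr']
  refine ⟨((Finsupp.linearCombination (B ⊗[k] R) id).restrictScalars B) ∘ₗ r'' ∘ₗ
    (s.restrictScalars B), fun p => ?_⟩
  show Finsupp.linearCombination (B ⊗[k] R) id (r'' (s (((1 : B) ⊗ₜ[k] t) • p))) = p
  rw [map_smul, hr'']
  exact hs p

end ret

end Fermat.Agent.JF
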