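import Mathlib
import Fermat.Agent.JF.LD

/-!
# Retractions `M → M0`, base change of rigidifications (S25, block F2)
-/

set_option autoImplicit false

universe u

open TensorProduct

namespace Fermat.Agent.JF

open Fermat.Agent.JPC

section abs

variable {B M : Type*} [CommRing B] [AddCommGroup M] [Module B M]
variable {τ : M ≃ₗ[B] M} {P : Submodule B M}

theorem exists_ret_abs (h : ∀ p ∈ P, τ p ∈ P) (hex : ∀ m, ∃ n : ℕ, (τ ^ n) m ∈ P)
    (ρ : P →ₗ[B] P) (hρ : ∀ p (hp : p ∈ P), ρ ⟨τ p, h p hp⟩ = ⟨p, hp⟩) :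
    ∃ r : M →ₗ[B] P, ∀ p : P, r p = p := by
  have hpow : ∀ (n : ℕ) (p : M), p ∈ P → (τ ^ n) p ∈ P := by
    intro n
    induction n with
    | zero => exact fun p hp => by simpa using hp
    | succ n ih =>
      intro p hp
      rw [pow_succ']
      exact h _ (ih p hp)
  have hρpow : ∀ (n : ℕ) (p : M) (hp : p ∈ P), (ρ ^ n) ⟨(τ ^ n) p, hpow n p hp⟩ = ⟨p, hp⟩ := by
    intro n
    induction n with
    | zero => exact fun p hp => by simp
    | succ n ih =>
      intro p hp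
      have e : (⟨(τ ^ (n + 1)) p, hpow (n + 1) p hp⟩ : P) =
          ⟨τ ((τ ^ n) p), h _ (hpow n p hp)⟩ := by
        apply Subtype.ext
        show (τ ^ (n + 1)) p = τ ((τ ^ n) p)
        rw [pow_succ']
        rfl
      rw [pow_succ, e]
      show (ρ ^ n) (ρ _) = _
      rw [hρ _ (hpow n p hp)]
      exact ih p hp
  have hind : ∀ (m : M) (n j : ℕ) (hn : (τ ^ n) m ∈ P) (hj : (τ ^ (n + j)) m ∈ P),
      (ρ ^ (n + j)) ⟨(τ ^ (n + j)) m, hj⟩ = (ρ ^ n) ⟨(τ ^ n) m, hn⟩ := by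
    intro m n j hn hj
    have e : (⟨(τ ^ (n + j)) m, hj⟩ : P) = ⟨(τ ^ j) ((τ ^ n) m), hpow j _ hn⟩ := by
      apply Subtype.ext
      show (τ ^ (n + j)) m = (τ ^ j) ((τ ^ n) m)
      rw [add_comm, pow_add]
      rfl
    rw [pow_add, e]
    show (ρ ^ n) ((ρ ^ j) _) = _
    rw [hρpow j _ hn]
  have hind2 : ∀ (m : M) (n n' : ℕ) (hn : (τ ^ n) m ∈ P) (hn' : (τ ^ n') m ∈ P),
      (ρ ^ n) ⟨(τ ^ n) m, hn⟩ = (ρ ^ n') ⟨(τ ^ n') m, hn'⟩ := by
    intro m n n' hn hn'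
    rcases le_total n n' with hle | hle
    · obtain ⟨j, rfl⟩ := Nat.exists_eq_add_of_le hle
      exact (hind m n j hn hn').symm
    · obtain ⟨j, rfl⟩ := Nat.exists_eq_add_of_le hle
      exact hind m n' j hn' hn
  choose N hN using hex
  have hup : ∀ (m : M) (n j : ℕ), (τ ^ n) m ∈ P → (τ ^ (n + j)) m ∈ P := by
    intro m n j hn
    rw [add_comm, pow_add]
    exact hpow j _ hn
  refine ⟨{ toFun := fun m => (ρ ^ N m) ⟨(τ ^ N m) m, hN m⟩, map_add' := ?_, map_smul' := ?_ }, ?_⟩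
  · intro x y
    have hx := hup x (N x) (N y) (hN x)
    have hy := hup y (N y) (N x) (hN y)
    rw [add_comm (N y)] at hy
    have hxy : (τ ^ (N x + N y)) (x + y) ∈ P := by
      rw [map_add]
      exact P.add_mem hx hy
    rw [hind2 (x + y) _ _ (hN (x + y)) hxy, hind2 x _ _ (hN x) hx, hind2 y _ _ (hN y) hy,
      ← map_add]
    congr 1
    apply Subtype.ext
    exact map_add _ _ _
  · intro b x
    have hx : (τ ^ N x) (b • x) ∈ P := by
      rw [map_smul]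
      exact P.smul_mem b (hN x)
    rw [hind2 (b • x) _ _ (hN (b • x)) hx, RingHom.id_apply, ← map_smul]
    congr 1
    apply Subtype.ext
    exact map_smul _ _ _
  · intro p
    exact hρpow (N p) p p.2

/-- a retraction makes `B' ⊗ P → B' ⊗ M` injective -/
theorem toBC_injective {B' : Type*} [CommRing B'] [Algebra B B'] (r : M →ₗ[B] P)
    (hr : ∀ p : P, r p = p) : Function.Injective (P.toBaseChange B') := by
  have h1 : r.baseChange B' ∘ₗ P.subtype.baseChange B' = LinearMap.id := by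
    rw [← LinearMap.baseChange_comp]
    have : r ∘ₗ P.subtype = LinearMap.id := by
      ext p
      exact congrArg Subtype.val (hr p)
    rw [this]
    exact LinearMap.baseChange_id
  intro x y hxy
  have h2 := congrArg (fun z : P.baseChange B' => r.baseChange B' (z : B' ⊗[B] M)) hxy
  have h3 := fun z => LinearMap.congr_fun h1 z
  simp only [LinearMap.comp_apply, LinearMap.id_apply] at h3
  have h4 : ∀ z, ((P.toBaseChange B' z : P.baseChange B') : B' ⊗[B] M) =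
      P.subtype.baseChange B' z := fun z => rfl
  simp only [h4] at h2
  rwa [h3, h3] at h2

end abs

variable {k : Type u} [Field k] {X : TwoChart k} {B : Type u} [CommRing B] [Algebra k B]

/-- `t : M0 → M0` has a `B`-linear left inverse -/
theorem exists_rho0 {L : PreLD X B} (hL : L.IsLine) : ∃ ρ : L.M0 →ₗ[B] L.M0,
    ∀ m (hm : m ∈ L.M0), ρ ⟨(X.t : X.A) • m, L.smul0 _ X.t_mem m hm⟩ = ⟨m, hm⟩ := by
  obtain ⟨r, hr⟩ := exists_ret_A0 X
  have := hL.inv0
  obtain ⟨ρ, hρ⟩ := exists_ret_proj (B := B) (P := L.M0') _ r hr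
  refine ⟨{ toFun := fun m => ρ ⟨m, m.2⟩, map_add' := fun x y => ρ.map_add ⟨x, x.2⟩ ⟨y, y.2⟩,
            map_smul' := fun b x => ρ.map_smul b ⟨x, x.2⟩ }, fun m hm => ?_⟩
  have h1 : (⟨(X.t : X.A) • m, L.smul0 _ X.t_mem m hm⟩ : L.M0') =
      ((1 : B) ⊗ₜ[k] (⟨X.t, X.t_mem⟩ : X.A0)) • (⟨m, hm⟩ : L.M0') := by
    apply Subtype.ext
    show (X.t : X.A) • m = ((1 : B) ⊗ₜ[k] (⟨X.t, X.t_mem⟩ : X.A0)) • m
    rw [PreLD.tmul_smul0, one_smul]
  apply Subtype.ext
  show ((ρ (⟨(X.t : X.A) • m, L.smul0 _ X.t_mem m hm⟩ : L.M0') : L.M0') : L.M) = m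
  rw [h1, hρ]

/-- `t⁻¹ : M1 → M1` has a `B`-linear left inverse -/
theorem exists_rho1 {L : PreLD X B} (hL : L.IsLine) : ∃ ρ : L.M1 →ₗ[B] L.M1,
    ∀ m (hm : m ∈ L.M1),
      ρ ⟨((X.t⁻¹ : X.Aˣ) : X.A) • m, L.smul1 _ X.tinv_mem m hm⟩ = ⟨m, hm⟩ := by
  obtain ⟨r, hr⟩ := exists_ret_A1 X
  have := hL.inv1
  obtain ⟨ρ, hρ⟩ := exists_ret_proj (B := B) (P := L.M1') _ r hr
  refine ⟨{ toFun := fun m => ρ ⟨m, m.2⟩, map_add' := fun x y => ρ.map_add ⟨x, x.2⟩ ⟨y, y.2⟩,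
            map_smul' := fun b x => ρ.map_smul b ⟨x, x.2⟩ }, fun m hm => ?_⟩
  have h1 : (⟨((X.t⁻¹ : X.Aˣ) : X.A) • m, L.smul1 _ X.tinv_mem m hm⟩ : L.M1') =
      ((1 : B) ⊗ₜ[k] (⟨_, X.tinv_mem⟩ : X.A1)) • (⟨m, hm⟩ : L.M1') := by
    apply Subtype.ext
    show ((X.t⁻¹ : X.Aˣ) : X.A) • m = ((1 : B) ⊗ₜ[k] (⟨_, X.tinv_mem⟩ : X.A1)) • m
    rw [PreLD.tmul_smul1, one_smul]
  apply Subtype.ext
  show ((ρ (⟨((X.t⁻¹ : X.Aˣ) : X.A) • m, L.smul1 _ X.tinv_mem m hm⟩ : L.M1') : L.M1') : L.M) = m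
  rw [h1, hρ]

/-- **`M0` is a direct summand of `M` over `B`** -/
theorem ret0 {L : PreLD X B} (hL : L.IsLine) :
    ∃ r : L.M →ₗ[B] L.M0, ∀ m : L.M0, r m = m := by
  obtain ⟨ρ, hρ⟩ := exists_rho0 hL
  exact exists_ret_abs (τ := L.τ) (lat L).memP (lat L).exP ρ hρ

/-- **`M1` is a direct summand of `M` over `B`** -/
theorem ret1 {L : PreLD X B} (hL : L.IsLine) :
    ∃ r : L.M →ₗ[B] L.M1, ∀ m : L.M1, r m = m := by
  obtain ⟨ρ, hρ⟩ := exists_rho1 hL
  exact exists_ret_abs (τ := L.τ⁻¹) (lat L).memQ (lat L).exQ ρ hρ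

section BC

variable (B' : Type u) [CommRing B'] [Algebra k B'] [Algebra B B'] [IsScalarTower k B B']

omit [Algebra k B'] [IsScalarTower k B B'] in
theorem toBC0_bijective {L : PreLD X B} (hL : L.IsLine) :
    Function.Bijective (L.M0.toBaseChange B') := by
  obtain ⟨r, hr⟩ := ret0 hL
  exact ⟨toBC_injective r hr, L.M0.toBaseChange_surjective B'⟩

omit [Algebra k B'] [IsScalarTower k B B'] in
theorem toBC1_bijective {L : PreLD X B} (hL : L.IsLine) :
    Function.Bijective (L.M1.toBaseChange B') := by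
  obtain ⟨r, hr⟩ := ret1 hL
  exact ⟨toBC_injective r hr, L.M1.toBaseChange_surjective B'⟩

/-- the base change of the functional `λ : M0 → B` -/
noncomputable def lamBC {L : PreLD X B} (hL : L.IsLine) (R : L.Rig) :
    (L.baseChange B').M0 →ₗ[B'] B' :=
  ((TensorProduct.AlgebraTensorModule.rid B B' B').toLinearMap ∘ₗ
    (R.lam ∘ₗ (ret0 hL).choose).baseChange B') ∘ₗ (L.M0.baseChange B').subtype

theorem lamBC_tmul {L : PreLD X B} (hL : L.IsLine) (R : L.Rig) (b : B') (m : L.M0)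
    (h : (b ⊗ₜ[B] (m : L.M) : B' ⊗[B] L.M) ∈ L.M0.baseChange B') :
    lamBC B' hL R ⟨b ⊗ₜ[B] (m : L.M), h⟩ = b * algebraMap B B' (R.lam m) := by
  show (TensorProduct.AlgebraTensorModule.rid B B' B')
    ((R.lam ∘ₗ (ret0 hL).choose).baseChange B' (b ⊗ₜ[B] (m : L.M))) = _
  rw [LinearMap.baseChange_tmul, TensorProduct.AlgebraTensorModule.rid_tmul,
    LinearMap.comp_apply, (ret0 hL).choose_spec, Algebra.smul_def, mul_comm]

/-- `B' ⊗ M0 → M0'` -/
noncomputable def tb0 (L : PreLD X B) : B' ⊗[B] L.M0 →ₗ[B'] (L.baseChange B').M0 :=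
  L.M0.toBaseChange B'

theorem tb0_tmul (L : PreLD X B) (b : B') (m : L.M0) :
    tb0 B' L (b ⊗ₜ m) = ⟨b ⊗ₜ[B] (m : L.M), Submodule.tmul_mem_baseChange_of_mem _ m.2⟩ := rfl

theorem tb0_surjective (L : PreLD X B) : Function.Surjective (tb0 B' L) :=
  L.M0.toBaseChange_surjective B'

theorem tb0_bijective {L : PreLD X B} (hL : L.IsLine) : Function.Bijective (tb0 B' L) :=
  toBC0_bijective B' hL

/-- `B' ⊗ M1 → M1'` -/
noncomputable def tb1 (L : PreLD X B) : B' ⊗[B] L.M1 →ₗ[B'] (L.baseChange B').M1 :=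
  L.M1.toBaseChange B'

theorem tb1_tmul (L : PreLD X B) (b : B') (m : L.M1) :
    tb1 B' L (b ⊗ₜ m) = ⟨b ⊗ₜ[B] (m : L.M), Submodule.tmul_mem_baseChange_of_mem _ m.2⟩ := rfl

theorem tb1_surjective (L : PreLD X B) : Function.Surjective (tb1 B' L) :=
  L.M1.toBaseChange_surjective B'

theorem tb1_bijective {L : PreLD X B} (hL : L.IsLine) : Function.Bijective (tb1 B' L) :=
  toBC1_bijective B' hL

/-- the action of `a ∈ A0` on `M0` -/
def act0 {B : Type u} [CommRing B] [Algebra k B] (L : PreLD X B) (a : X.A0) :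
    L.M0 →ₗ[B] L.M0 where
  toFun m := ⟨(a : X.A) • (m : L.M), L.smul0 _ a.2 _ m.2⟩
  map_add' _ _ := Subtype.ext (smul_add _ _ _)
  map_smul' b x := Subtype.ext (smul_comm b (a : X.A) (x : L.M)).symm

/-- **base change of a rigidification** -/
noncomputable def rigBC {L : PreLD X B} (hL : L.IsLine) (R : L.Rig) :
    (L.baseChange B').Rig where
  lam := lamBC B' hL R
  smul a x := by
    have key : (lamBC B' hL R ∘ₗ act0 (L.baseChange B') a) ∘ₗ tb0 B' L =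
        (algebraMap k B' (X.ev a) • lamBC B' hL R) ∘ₗ tb0 B' L := by
      refine TensorProduct.AlgebraTensorModule.curry_injective ?_
      refine LinearMap.ext fun b => LinearMap.ext fun m => ?_
      refine (lamBC_tmul B' hL R b ⟨(a : X.A) • (m : L.M), L.smul0 _ a.2 _ m.2⟩
        (Submodule.tmul_mem_baseChange_of_mem _ (L.smul0 _ a.2 _ m.2))).trans ?_
      refine Eq.trans ?_ (congrArg (fun z => algebraMap k B' (X.ev a) * z)
        (lamBC_tmul B' hL R b m (Submodule.tmul_mem_baseChange_of_mem _ m.2)).symm)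
      beta_reduce
      rw [R.smul, map_mul, ← IsScalarTower.algebraMap_apply]
      ring
    obtain ⟨y, rfl⟩ := tb0_surjective B' L x
    exact LinearMap.congr_fun key y
  surj b := by
    obtain ⟨m, hm⟩ := R.surj 1
    refine ⟨⟨b ⊗ₜ[B] (m : L.M), Submodule.tmul_mem_baseChange_of_mem _ m.2⟩, ?_⟩
    refine (lamBC_tmul B' hL R b m _).trans ?_
    rw [hm, map_one, mul_one]

theorem rigBC_lam_tmul {L : PreLD X B} (hL : L.IsLine) (R : L.Rig) (b : B') (m : L.M0) :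
    (rigBC B' hL R).lam ⟨b ⊗ₜ[B] (m : L.M), Submodule.tmul_mem_baseChange_of_mem _ m.2⟩ =
      b * algebraMap B B' (R.lam m) := lamBC_tmul B' hL R b m _

end BC

end Fermat.Agent.JF
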