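import Mathlib
import Fermat.Agent.JF.Fin0
import Fermat.Agent.JF.Inv
import Fermat.Agent.JF.Ret

/-!
# `dim W = d` over a field (S25, block I)
-/

set_option autoImplicit false

universe u

open TensorProduct Polynomial

namespace Fermat.Agent.JF

open Fermat.Agent.JPC

/-- invertible modules are trivial modulo an ideal with semi-local quotient -/
theorem inv_quot_equiv {R : Type*} [CommRing R] {N : Type*} [AddCommGroup N] [Module R N]
    [Module.Invertible R N] (I : Ideal R) [Finite (MaximalSpectrum (R ⧸ I))] :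
    Nonempty ((N ⧸ (I • ⊤ : Submodule R N)) ≃ₗ[R] R ⧸ I) := by
  have h1 : Module.Invertible (R ⧸ I) ((R ⧸ I) ⊗[R] N) := inferInstance
  have h2 : Subsingleton (CommRing.Pic (R ⧸ I)) := inferInstance
  have hfree : Module.Free (R ⧸ I) ((R ⧸ I) ⊗[R] N) := inferInstance
  obtain ⟨e2⟩ := Module.Invertible.free_iff_linearEquiv.mp hfree
  exact ⟨(TensorProduct.quotTensorEquivQuotSMul N I).symm.trans (e2.restrictScalars R)⟩

theorem fib_abs {R : Type*} [CommRing R] {K : Type*} [Field K] [Algebra K R] (t : R) {d : ℕ}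
    (e1 : (R ⧸ Ideal.span {t}) ≃ₗ[K] (Fin d → K)) {N : Type*} [AddCommGroup N] [Module R N]
    [Module K N] [IsScalarTower K R N] [Module.Invertible R N] :
    ∃ σ : N →ₗ[K] (Fin d → K), Function.Surjective σ ∧ ∀ m : N, σ m = 0 ↔ ∃ n : N, m = t • n := by
  have hfin : Module.Finite K (R ⧸ Ideal.span {t}) := Module.Finite.equiv e1.symm
  have hart : IsArtinianRing (R ⧸ Ideal.span {t}) := IsArtinianRing.of_finite K _
  have hms : Finite (MaximalSpectrum (R ⧸ Ideal.span {t})) := inferInstance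
  obtain ⟨e3⟩ := inv_quot_equiv (N := N) (Ideal.span {t})
  let π : N →ₗ[R] (R ⧸ Ideal.span {t}) :=
    e3.toLinearMap ∘ₗ (Ideal.span {t} • ⊤ : Submodule R N).mkQ
  have hπs : Function.Surjective π := e3.surjective.comp (Submodule.mkQ_surjective _)
  have hπ : ∀ m : N, π m = 0 ↔ ∃ n : N, m = t • n := by
    intro m
    show e3 _ = 0 ↔ _
    rw [LinearEquiv.map_eq_zero_iff, Submodule.mkQ_apply, Submodule.Quotient.mk_eq_zero,
      Submodule.ideal_span_singleton_smul, Submodule.mem_smul_pointwise_iff_exists]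
    constructor
    · rintro ⟨n, -, hn⟩
      exact ⟨n, hn.symm⟩
    · rintro ⟨n, hn⟩
      exact ⟨n, trivial, hn.symm⟩
  refine ⟨e1.toLinearMap ∘ₗ π.restrictScalars K, e1.surjective.comp hπs, fun m => ?_⟩
  show e1 (π m) = 0 ↔ _
  rw [LinearEquiv.map_eq_zero_iff]
  exact hπ m

variable {k : Type u} [Field k] (X : TwoChart k) (K : Type u) [Field K] [Algebra k K]

/-- constant coefficients over `K` -/
noncomputable def ccK (i : Fin X.d) : K ⊗[k] X.A0 →ₗ[K] K :=
  (TensorProduct.AlgebraTensorModule.rid k K K).toLinearMap ∘ₗ (cc0 X i).baseChange K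

theorem ccK_tmul (i : Fin X.d) (c : K) (a : X.A0) : ccK X K i (c ⊗ₜ a) = cc0 X i a • c := by
  show TensorProduct.AlgebraTensorModule.rid k K K ((cc0 X i).baseChange K (c ⊗ₜ a)) = _
  rw [LinearMap.baseChange_tmul, TensorProduct.AlgebraTensorModule.rid_tmul]

theorem ccK_t (i : Fin X.d) (y : K ⊗[k] X.A0) : ccK X K i (tK X K * y) = 0 := by
  induction y using TensorProduct.induction_on with
  | zero => rw [mul_zero, map_zero]
  | tmul c a => rw [tK, Algebra.TensorProduct.tmul_mul_tmul, ccK_tmul, cc0_t, zero_smul]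
  | add x y hx hy => rw [mul_add, map_add, hx, hy, add_zero]

theorem exists_ccK (y : K ⊗[k] X.A0) : ∃ y' : K ⊗[k] X.A0,
    y = ∑ i, ccK X K i y ⊗ₜ[k] (⟨X.b0 i, X.b0_mem i⟩ : X.A0) + tK X K * y' := by
  induction y using TensorProduct.induction_on with
  | zero => exact ⟨0, by simp⟩
  | tmul c a =>
    obtain ⟨a', ha'⟩ := exists_cc0 X a
    refine ⟨c ⊗ₜ a', ?_⟩
    conv_lhs => rw [ha']
    rw [TensorProduct.tmul_add, TensorProduct.tmul_sum, tK, Algebra.TensorProduct.tmul_mul_tmul,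
      one_mul]
    congr 1
    refine Finset.sum_congr rfl fun i _ => ?_
    rw [ccK_tmul, TensorProduct.tmul_smul, TensorProduct.smul_tmul']
  | add x y hx hy =>
    obtain ⟨x', hx⟩ := hx
    obtain ⟨y', hy⟩ := hy
    refine ⟨x' + y', ?_⟩
    conv_lhs => rw [hx, hy]
    rw [mul_add, add_add_add_comm, ← Finset.sum_add_distrib]
    congr 1
    refine Finset.sum_congr rfl fun i _ => ?_
    rw [map_add, TensorProduct.add_tmul]

/-- `(K ⊗ A0)/t ≃ K^d` -/
theorem exists_equiv_quot : Nonempty ((K ⊗[k] X.A0 ⧸ Ideal.span {tK X K}) ≃ₗ[K] (Fin X.d → K)) := by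
  let σ : K ⊗[k] X.A0 →ₗ[K] (Fin X.d → K) := LinearMap.pi (ccK X K)
  have hσ : Function.Surjective σ := by
    intro c
    refine ⟨∑ i, c i ⊗ₜ[k] (⟨X.b0 i, X.b0_mem i⟩ : X.A0), ?_⟩
    funext j
    show ccK X K j _ = c j
    rw [map_sum]
    simp only [ccK_tmul, cc0_b]
    simp
  have hker : LinearMap.ker σ = (Ideal.span {tK X K}).restrictScalars K := by
    ext y
    rw [LinearMap.mem_ker, Submodule.restrictScalars_mem, Ideal.mem_span_singleton']
    constructor
    · intro hy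
      obtain ⟨y', hy'⟩ := exists_ccK X K y
      refine ⟨y', ?_⟩
      rw [hy', Finset.sum_eq_zero, zero_add, mul_comm]
      intro i _
      have h1 : ccK X K i y = 0 := congrFun hy i
      rw [h1, TensorProduct.zero_tmul]
    · rintro ⟨y', rfl⟩
      funext i
      show ccK X K i _ = 0
      rw [mul_comm, ccK_t]
  exact ⟨((Submodule.quotEquivOfEq _ _ hker.symm).trans
    (σ.quotKerEquivOfSurjective hσ) : _)⟩

variable {X K}

/-- over a field `M0/tM0` is `K^d` -/
theorem exists_fibre_map {L : PreLD X K} (hL : L.IsLine) :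
    ∃ σ : L.M0 →ₗ[K] (Fin X.d → K), Function.Surjective σ ∧
      ∀ m : L.M0, σ m = 0 ↔ ((X.t⁻¹ : X.Aˣ) : X.A) • (m : L.M) ∈ L.M0 := by
  have := hL.inv0
  obtain ⟨e1⟩ := exists_equiv_quot X K
  obtain ⟨σ, hσ, hker⟩ := fib_abs (N := L.M0') (tK X K) e1
  refine ⟨{ toFun := fun m => σ ⟨m, m.2⟩, map_add' := fun x y => σ.map_add ⟨x, x.2⟩ ⟨y, y.2⟩,
            map_smul' := fun c x => σ.map_smul c ⟨x, x.2⟩ }, fun c => ?_, fun m => ?_⟩
  · obtain ⟨m, hm⟩ := hσ c
    exact ⟨⟨m, m.2⟩, hm⟩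
  · refine (hker ⟨m, m.2⟩).trans ⟨?_, fun h => ?_⟩
    · rintro ⟨n, hn⟩
      have h1 : (m : L.M) = (X.t : X.A) • (n : L.M) := by
        have h2 := congrArg (Subtype.val) hn
        refine h2.trans ?_
        show (tK X K) • (n : L.M) = _
        rw [tK, PreLD.tmul_smul0, one_smul]
        rfl
      rw [h1, ← mul_smul, Units.inv_mul, one_smul]
      exact n.2
    · refine ⟨⟨_, h⟩, Subtype.ext ?_⟩
      show (m : L.M) = (tK X K) • (((X.t⁻¹ : X.Aˣ) : X.A) • (m : L.M))
      rw [tK, PreLD.tmul_smul0, one_smul, ← mul_smul]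
      show (m : L.M) = ((X.t : X.A) * _) • (m : L.M)
      rw [Units.mul_inv, one_smul]

/-- **`W ≃ K^d`** -/
theorem exists_equiv_W {L : PreLD X K} (hL : L.IsLine) (hc : L.Acyclic) :
    Nonempty (L.W ≃ₗ[K] (Fin X.d → K)) := by
  obtain ⟨σ, hσ, hker⟩ := exists_fibre_map hL
  let π : L.M0 →ₗ[K] L.W := (cf L hc 0) ∘ₗ L.M0.subtype
  have hπ : Function.Surjective π := fun w =>
    ⟨⟨w, W_le L w.2⟩, cf_zero_W L hc w⟩
  have he : LinearMap.ker π = LinearMap.ker σ := by
    ext m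
    rw [LinearMap.mem_ker, LinearMap.mem_ker, hker]
    constructor
    · intro hm
      obtain ⟨p, hp, e⟩ := exists_cf_zero_add L hc m.2
      have hm' : cf L hc 0 (m : L.M) = 0 := hm
      rw [hm', Submodule.coe_zero, zero_add] at e
      rw [e, ← mul_smul, Units.inv_mul, one_smul]
      exact hp
    · intro hm
      show cf L hc 0 (m : L.M) = 0
      have h1 := (mem_M0_iff L hc).mp hm (-1) (by omega)
      rwa [cf_tinv] at h1
  exact ⟨(π.quotKerEquivOfSurjective hπ).symm.trans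
    ((Submodule.quotEquivOfEq _ _ he).trans (σ.quotKerEquivOfSurjective hσ))⟩

end Fermat.Agent.JF
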