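import Mathlib
import Fermat.Agent.JF.Dim
import Fermat.Agent.JKL.Loc
import Fermat.Agent.JPC.Chart

/-!
# The functionals `w ↦ λ (p0 (c w))` separate the points of `W` (S25, block I)
-/

set_option autoImplicit false

universe u

open TensorProduct Polynomial

namespace Fermat.Agent.JF

open Fermat.Agent.JPC

variable {k : Type u} [Field k] {X : TwoChart k} {K : Type u} [Field K] [Algebra k K]

/-- rigidifications exist over fields -/
theorem exists_rig {L : PreLD X K} (hL : L.IsLine) : Nonempty L.Rig := by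
  have := hL.inv0
  obtain ⟨f, hf, hs, -⟩ := inv_exists_fibre (N := L.M0') ((evK K X.ev : K ⊗[k] X.A0 →ₐ[K] K) :
    K ⊗[k] X.A0 →+* K) (evK_surjective X.ev)
  have hc : ∀ (c : K) (m : L.M0), f ⟨c • (m : L.M), L.M0.smul_mem c m.2⟩ = c * f ⟨m, m.2⟩ := by
    intro c m
    have h := hf (c ⊗ₜ 1) ⟨m, m.2⟩
    have h1 : ((evK K X.ev : K ⊗[k] X.A0 →ₐ[K] K) : K ⊗[k] X.A0 →+* K) (c ⊗ₜ 1) = c := by
      show evK K X.ev (c ⊗ₜ 1) = c
      rw [evK_tmul, map_one, map_one, mul_one]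
    rw [h1] at h
    rw [← h]
    congr 1
    apply Subtype.ext
    show c • (m : L.M) = (c ⊗ₜ[k] (1 : X.A0)) • (m : L.M)
    rw [PreLD.tmul_smul0]
    show c • (m : L.M) = c • (1 : X.A) • (m : L.M)
    rw [one_smul]
  refine ⟨{ lam := { toFun := fun m => f ⟨m, m.2⟩, map_add' := fun x y => ?_,
                     map_smul' := fun c m => hc c m }, smul := fun a m => ?_, surj := ?_ }⟩
  · rw [← map_add]
    rfl
  · have h := hf (1 ⊗ₜ a) ⟨m, m.2⟩
    have h1 : ((evK K X.ev : K ⊗[k] X.A0 →ₐ[K] K) : K ⊗[k] X.A0 →+* K) (1 ⊗ₜ a) =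
        algebraMap k K (X.ev a) := by
      show evK K X.ev (1 ⊗ₜ a) = _
      rw [evK_tmul, one_mul]
    rw [h1] at h
    refine Eq.trans ?_ h
    show f _ = f _
    congr 1
    apply Subtype.ext
    show (a : X.A) • (m : L.M) = ((1 : K) ⊗ₜ[k] a) • (m : L.M)
    rw [PreLD.tmul_smul0, one_smul]
  · intro c
    obtain ⟨m, hm⟩ := hs c
    exact ⟨⟨m, m.2⟩, hm⟩

theorem p0_of_mem {B : Type u} [CommRing B] [Algebra k B] {L : PreLD X B} (hc : L.Acyclic)
    {m : L.M} (hm : m ∈ L.M0) : hc.p0 m = ⟨m, hm⟩ :=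
  Submodule.projectionOnto_apply_left hc ⟨m, hm⟩

/-- the functionals separate points -/
theorem sep_fn {L : PreLD X K} (hL : L.IsLine) (hc : L.Acyclic) (r : L.Rig) {w : L.M}
    (hw : ∀ c : X.A, r.lam (hc.p0 (c • w)) = 0) : w = 0 := by
  by_contra hne
  have := JKL.isLine_inv L hL
  have hdom := X.dom K
  let ψ : L.M →ₗ[K] K := r.lam ∘ₗ hc.p0
  -- `ψ` vanishes on `R w`
  have h1 : ∀ s : K ⊗[k] X.A, ψ (s • w) = 0 := by
    intro s
    induction s using TensorProduct.induction_on with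
    | zero => rw [zero_smul (K ⊗[k] X.A) w, map_zero]
    | tmul c a => rw [PreLD.tmul_smul, map_smul, smul_eq_mul, show ψ (a • w) = 0 from hw a, mul_zero]
    | add x y hx hy => rw [add_smul, map_add, hx, hy, add_zero]
  obtain ⟨φ, hφ⟩ := inv_exists_ne (R := K ⊗[k] X.A) hne
  obtain ⟨m, hm⟩ := r.surj 1
  -- a polynomial in `t` in the ideal generated by `φ w`
  obtain ⟨n, y, hy⟩ := JKL.exists_t0_pow X K (φ w)
  have hy0 : y ≠ 0 := by
    rintro rfl
    rw [map_zero] at hy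
    rcases mul_eq_zero.mp hy with h | h
    · rw [map_pow] at h
      exact ((JKL.isUnit_ι0_t0 X K).pow n).ne_zero h
    · exact hφ h
  obtain ⟨q, hq, g, hg⟩ := exists_poly_mul X K hy0
  have h2 : ψ ((JKL.ι0 X K (aeval (tK X K) q)) • (m : L.M)) = 0 ∧ ∀ s : K ⊗[k] X.A,
      ψ (s • (JKL.ι0 X K (aeval (tK X K) q)) • (m : L.M)) = 0 := by
    have h3 : ∀ s : K ⊗[k] X.A, ψ (s • (JKL.ι0 X K (aeval (tK X K) q)) • (m : L.M)) = 0 := by
      intro s
      rw [← hg, map_mul, ← hy, ← mul_assoc, mul_smul _ (φ w), inv_smul_comm φ (m : L.M) w,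
        ← mul_smul, ← mul_smul]
      exact h1 _
    exact ⟨by simpa using h3 1, h3⟩
  have hpoly : JKL.ι0 X K (aeval (tK X K) q) = ∑ i ∈ q.support,
      q.coeff i ⊗ₜ[k] ((X.t : X.A) ^ i) := by
    rw [aeval_eq_sum_range, map_sum]
    have : ∀ i, JKL.ι0 X K (q.coeff i • tK X K ^ i) = q.coeff i ⊗ₜ[k] ((X.t : X.A) ^ i) := by
      intro i
      rw [map_smul, tK, Algebra.TensorProduct.tmul_pow, one_pow, JKL.ι0_tmul,
        TensorProduct.smul_tmul', smul_eq_mul, mul_one]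
      rfl
    simp only [this]
    symm
    apply Finset.sum_subset
    · intro i hi
      rw [Finset.mem_range]
      exact Nat.lt_succ_of_le (le_natDegree_of_mem_supp i hi)
    · intro i _ hi
      rw [notMem_support_iff.mp hi, TensorProduct.zero_tmul]
  let j := q.natTrailingDegree
  have h4 := h2.2 (1 ⊗ₜ[k] (((X.t⁻¹ : X.Aˣ) : X.A) ^ j))
  rw [hpoly, ← mul_smul, Finset.mul_sum, Finset.sum_smul, map_sum] at h4
  have h5 : ∀ i ∈ q.support, ψ (((1 : K) ⊗ₜ[k] (((X.t⁻¹ : X.Aˣ) : X.A) ^ j) *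
      q.coeff i ⊗ₜ[k] ((X.t : X.A) ^ i)) • (m : L.M)) = if i = j then q.coeff j else 0 := by
    intro i hi
    have hji : j ≤ i := natTrailingDegree_le_of_mem_supp i hi
    obtain ⟨e, rfl⟩ := Nat.exists_eq_add_of_le hji
    have h6 : ((X.t⁻¹ : X.Aˣ) : X.A) ^ j * (X.t : X.A) ^ (j + e) = (X.t : X.A) ^ e := by
      rw [pow_add, ← mul_assoc, ← mul_pow, Units.inv_mul, one_pow, one_mul]
    rw [Algebra.TensorProduct.tmul_mul_tmul, one_mul, h6, PreLD.tmul_smul, map_smul,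
      smul_eq_mul]
    have h7 : ψ ((X.t : X.A) ^ e • (m : L.M)) = 0 ^ e := by
      show r.lam (hc.p0 ((X.t : X.A) ^ e • (m : L.M))) = 0 ^ e
      rw [p0_of_mem hc (L.tn_mem0 m.2 e)]
      have h8 := r.smul (tA0 X ^ e) m
      rw [map_pow, show X.ev (tA0 X) = 0 from X.ev_t, hm, mul_one, map_pow, map_zero] at h8
      exact h8
    rw [h7]
    by_cases he : e = 0
    · subst he
      simp
    · rw [zero_pow he, mul_zero, if_neg (by omega)]
  rw [Finset.sum_congr rfl h5, Finset.sum_ite_eq', if_pos (natTrailingDegree_mem_support_of_nonzero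
    hq)] at h4
  exact (mem_support_iff.mp (natTrailingDegree_mem_support_of_nonzero hq)) h4

end Fermat.Agent.JF
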