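import Mathlib
import Fermat.Agent.JF.Sep

/-!
# Acyclic line data over a field lie in some chart (S25, block I)
-/

set_option autoImplicit false

universe u

open TensorProduct Polynomial Module

namespace Fermat.Agent.JF

open Fermat.Agent.JPC

/-- linear algebra: a separating family of functionals on a `d`-dimensional space contains a
basis through a given non-zero member -/
theorem exists_basis_family {K W : Type*} [Field K] [AddCommGroup W] [Module K W] {d : ℕ}
    (e : W ≃ₗ[K] (Fin d → K)) {J : Type*} (g : J → W →ₗ[K] K)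
    (hg : ∀ w, (∀ j, g j w = 0) → w = 0) (j₀ : J) (h₀ : g j₀ ≠ 0) (hd : 0 < d) :
    ∃ c : Fin d → J, c ⟨0, hd⟩ = j₀ ∧
      Function.Bijective (LinearMap.pi fun i => g (c i) : W →ₗ[K] (Fin d → K)) := by
  classical
  have hfin : FiniteDimensional K W := Module.Finite.equiv e.symm
  have hdim : finrank K W = d := by rw [e.finrank_eq, finrank_fin_fun]
  -- the functionals span the dual
  have hspan : Submodule.span K (Set.range g) = ⊤ := by
    by_contra hne
    obtain ⟨w, hw⟩ : ∃ w : W, w ≠ 0 ∧ ∀ φ ∈ Submodule.span K (Set.range g), φ w = 0 := by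
      have h1 : (Submodule.span K (Set.range g)).dualCoannihilator ≠ ⊥ := by
        intro h
        apply hne
        have h2 := Subspace.dualCoannihilator_dualAnnihilator_eq
          (W := Submodule.span K (Set.range g))
        rw [h, Submodule.dualAnnihilator_bot] at h2
        exact h2.symm
      obtain ⟨w, hw, hw0⟩ := Submodule.exists_mem_ne_zero_of_ne_bot h1
      exact ⟨w, hw0, (Submodule.mem_dualCoannihilator w).mp hw⟩
    exact hw.1 (hg w fun j => hw.2 _ (Submodule.subset_span ⟨j, rfl⟩))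
  have hli : LinearIndepOn K g ({j₀} : Set J) := LinearIndepOn.singleton (R := K) h₀
  obtain ⟨b, -, hb2, hb3, hb4⟩ := exists_linearIndepOn_extension hli (Set.subset_univ _)
  have hspan' : ⊤ ≤ Submodule.span K (Set.range fun j : b => g j) := by
    rw [← hspan, Submodule.span_le, ← Set.image_univ]
    refine hb3.trans ?_
    have : Set.range (fun j : b => g j) = g '' b := by
      ext x
      simp
    rw [this]
  let B : Basis b K (W →ₗ[K] K) := Basis.mk hb4 hspan'
  have hfd : FiniteDimensional K (W →ₗ[K] K) := inferInstance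
  have : Fintype b := FiniteDimensional.fintypeBasisIndex B
  have hcard : Fintype.card b = d := by
    rw [← finrank_eq_card_basis B, ← hdim]
    exact Subspace.dual_finrank_eq
  let e₀ : b ≃ Fin d := Fintype.equivFinOfCardEq hcard
  have hj₀ : j₀ ∈ b := hb2 rfl
  let e₁ : b ≃ Fin d := e₀.trans (Equiv.swap (e₀ ⟨j₀, hj₀⟩) ⟨0, hd⟩)
  have he₁ : e₁ ⟨j₀, hj₀⟩ = ⟨0, hd⟩ := by
    show Equiv.swap (e₀ ⟨j₀, hj₀⟩) ⟨0, hd⟩ (e₀ ⟨j₀, hj₀⟩) = _
    exact Equiv.swap_apply_left _ _
  refine ⟨fun i => (e₁.symm i : J), ?_, ?_⟩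
  · show ((e₁.symm ⟨0, hd⟩ : b) : J) = j₀
    rw [← he₁, Equiv.symm_apply_apply]
  · have hinj : Function.Injective (LinearMap.pi fun i => g (e₁.symm i) : W →ₗ[K] (Fin d → K)) := by
      rw [injective_iff_map_eq_zero]
      intro w hw
      apply hg w
      intro j
      have h1 : Submodule.span K (Set.range fun j : b => g j) ≤
          LinearMap.ker (Dual.eval K W w) := by
        rw [Submodule.span_le]
        rintro _ ⟨i, rfl⟩
        show g i w = 0
        have h2 := congrFun hw (e₁ i)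
        have h3 : g (e₁.symm (e₁ i)) w = 0 := h2
        rwa [Equiv.symm_apply_apply] at h3
      exact h1 (hspan' (Submodule.mem_top (x := g j)))
    refine ⟨hinj, ?_⟩
    exact (LinearMap.injective_iff_surjective_of_finrank_eq_finrank
      (by rw [hdim, finrank_fin_fun])).mp hinj

variable {k : Type u} [Field k] {X : TwoChart k} {K : Type u} [Field K] [Algebra k K]

/-- **acyclic line data over a field lie in some chart** -/
theorem exists_index {L : PreLD X K} (hL : L.IsLine) (hc : L.Acyclic) :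
    ∃ ι : Idx X, L.InChart ι := by
  obtain ⟨r⟩ := exists_rig hL
  obtain ⟨e⟩ := exists_equiv_W hL hc
  have h₀ : (hc.fn r (1 : X.A) ∘ₗ L.W.subtype : L.W →ₗ[K] K) ≠ 0 := by
    intro h
    obtain ⟨m, hm⟩ := r.surj 1
    obtain ⟨p, hp, e⟩ := exists_cf_zero_add L hc m.2
    have h1 : r.lam ⟨(X.t : X.A) • p, L.smul0 _ X.t_mem p hp⟩ = 0 := by
      rw [r.smul ⟨X.t, X.t_mem⟩ ⟨p, hp⟩, X.ev_t, map_zero, zero_mul]
    have h2 := LinearMap.congr_fun h (cf L hc 0 m)
    have h3 : r.lam (hc.p0 ((1 : X.A) • (cf L hc 0 m : L.M))) = 0 := h2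
    rw [one_smul, p0_of_mem hc (W_le L (cf L hc 0 m).2)] at h3
    have h4 : m = ⟨(cf L hc 0 m : L.M), W_le L (cf L hc 0 m).2⟩ +
        ⟨(X.t : X.A) • p, L.smul0 _ X.t_mem p hp⟩ := Subtype.ext e
    rw [h4, map_add, h1, h3, add_zero] at hm
    exact zero_ne_one hm
  obtain ⟨c, hc0, hb⟩ := exists_basis_family e
    (fun a : X.A => (hc.fn r a ∘ₗ L.W.subtype : L.W →ₗ[K] K))
    (fun w hw => Subtype.ext (sep_fn hL hc r hw)) 1 h₀ X.d_pos
  exact ⟨⟨c, hc0⟩, hc, r, hb⟩

end Fermat.Agent.JF
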